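/-
S56 (Taylor-Wiles primes), block (C): DICTIONARY
  deformation ring data  -->  homs to the dual numbers  -->  cocycle classes with values in `ad`.
DEFINITIONS.  `k = ResidueField 𝒪`, `kε = DualNumber k` with the `𝒪`-algebra structure `S53.dualAlg 𝒪`.
A residual representation is used in matrix form `r : G →* GL₂(k)`; an infinitesimal lift is
`(1 + ε c) r`, `c : G → M₂(k)` a 1-cocycle for the adjoint action.
-/
import Fermat.Agent.S53.Dict
import Fermat.Agent.S53.TangentSep
import Fermat.Prelude.Def_GaloisRep_DeformationRingData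
import Fermat.Prelude.Def_GaloisRep_LocalConditions
import Fermat.Prelude.Def_GaloisRep_StrictOrdinary
import Fermat.Prelude.Def_GaloisRep_Flat

set_option autoImplicit false

open IsLocalRing Matrix

noncomputable section

namespace Fermat.Agent.S56.C

open Fermat.Agent.S53 (G M2 HasMatrix HasMatrixRes dualAlg Cond)

section field

variable {k : Type} [Field k]

/-- The adjoint action `g · X = g X g⁻¹` of `GL₂(k)` on `M₂(k)`. -/
def ad (g : GL (Fin 2) k) (X : M2 k) : M2 k :=
  (g : M2 k) * X * ((g⁻¹ : GL (Fin 2) k) : M2 k)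

/-- The underlying matrix valued function of `r`. -/
def rm (r : G →* GL (Fin 2) k) : G → M2 k := fun g => ((r g : GL (Fin 2) k) : M2 k)

/-- 1-cocycles `G → ad r` (no trace condition, no continuity). -/
def IsCoc (r : G →* GL (Fin 2) k) (c : G → M2 k) : Prop :=
  ∀ g h, c (g * h) = c g + ad (r g) (c h)

/-- 1-coboundaries. -/
def IsCob (r : G →* GL (Fin 2) k) (c : G → M2 k) : Prop :=
  ∃ X : M2 k, ∀ g, c g = ad (r g) X - X

/-- The infinitesimal lift `(1 + ε c) r` with values in `M₂(k[ε])`. -/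
def liftMat (r : G →* GL (Fin 2) k) (c : G → M2 k) : G → M2 (DualNumber k) :=
  fun g => (rm r g).map (TrivSqZeroExt.inl : k → DualNumber k) +
    (c g * rm r g).map (TrivSqZeroExt.inr : k → DualNumber k)

end field

section cond

variable (𝒪 : Type) [CommRing 𝒪] [IsLocalRing 𝒪]

/-- The lift `(1 + ε c) r` is (the matrix of) a representation of type `𝒟`. -/
def TypeD (𝒟 : Cond 𝒪) (r : G →* GL (Fin 2) (ResidueField 𝒪)) (c : G → M2 (ResidueField 𝒪)) : Prop :=
  letI := dualAlg 𝒪
  ∃ ρ : GaloisRepAdic (DualNumber (ResidueField 𝒪)), HasMatrix ρ (liftMat r c) ∧ 𝒟 ρ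

/-- CONTRACT consumed by block (C): the classes of the cocycles of type `𝒟` (and the trivial class)
are represented by a set of at most `|k|^n` cocycles.  (To be supplied by (GW)+(G2)+(T)+(Lq)+(F):
take representatives of a `k`-subspace of dimension `≤ n` of `H¹(G_ℚ, ad⁰)`.) -/
def SelBound (𝒟 : Cond 𝒪) (r : G →* GL (Fin 2) (ResidueField 𝒪)) (n : ℕ) : Prop :=
  ∃ T : Finset (G → M2 (ResidueField 𝒪)), T.card ≤ Nat.card (ResidueField 𝒪) ^ n ∧
    ∀ c, IsCoc r c → (TypeD 𝒪 𝒟 r c ∨ IsCob r c) → ∃ t ∈ T, IsCob r (c - t)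

/-- `𝒟` is inherited by `ρ ⊗_R k[ε]` along SURJECTIVE `𝒪`-algebra homs `R → k[ε]`. -/
def QuotStable (𝒟 : Cond 𝒪) : Prop :=
  letI := dualAlg 𝒪
  ∀ (R : Type) [CommRing R] [IsLocalRing R] [Algebra 𝒪 R] (ρ : GaloisRepAdic R), 𝒟 ρ →
    ∀ (φ : R →ₐ[𝒪] DualNumber (ResidueField 𝒪)) (hφ : IsLocalHom (φ : R →+* DualNumber (ResidueField 𝒪))),
      Function.Surjective φ → 𝒟 (ρ.baseChangeAlong (φ : R →+* DualNumber (ResidueField 𝒪)) hφ)

end cond

end Fermat.Agent.S56.C
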