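/-
S56 block (C), leaves C2a: calculus of the infinitesimal lifts `(1 + ε c) r`.
-/
import Fermat.Agent.S56.C.Defs
import Fermat.Agent.S53.Rep.TestAlg

set_option autoImplicit false

open IsLocalRing Matrix

noncomputable section

namespace Fermat.Agent.S56.C

open Fermat.Agent.S53 (G M2 HasMatrix HasMatrixRes dualAlg Cond)

section aux

variable {k : Type} [Field k]

/-- The matrix `A + ε B`. -/
def dn (A B : M2 k) : M2 (DualNumber k) :=
  A.map (TrivSqZeroExt.inl : k → DualNumber k) + B.map (TrivSqZeroExt.inr : k → DualNumber k)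

theorem dn_apply (A B : M2 k) (i j : Fin 2) :
    dn A B i j = TrivSqZeroExt.inl (A i j) + TrivSqZeroExt.inr (B i j) := rfl

theorem dn_map_fst (A B : M2 k) : (dn A B).map (TrivSqZeroExt.fst : DualNumber k → k) = A := by
  ext i j
  simp [dn_apply]

theorem dn_map_snd (A B : M2 k) : (dn A B).map (TrivSqZeroExt.snd : DualNumber k → k) = B := by
  ext i j
  simp [dn_apply]

theorem dn_inj {A B A' B' : M2 k} : dn A B = dn A' B' ↔ A = A' ∧ B = B' := by
  constructor
  · intro h
    exact ⟨by rw [← dn_map_fst A B, h, dn_map_fst], by rw [← dn_map_snd A B, h, dn_map_snd]⟩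
  · rintro ⟨rfl, rfl⟩
    rfl

theorem eq_dn (M : M2 (DualNumber k)) :
    M = dn (M.map TrivSqZeroExt.fst) (M.map TrivSqZeroExt.snd) := by
  ext i j
  · simp [dn_apply]
  · simp [dn_apply]

theorem dn_mul (A B A' B' : M2 k) : dn A B * dn A' B' = dn (A * A') (A * B' + B * A') := by
  ext i j
  · simp [dn_apply, Matrix.mul_apply, Fin.sum_univ_two]
  · simp [dn_apply, Matrix.mul_apply, Fin.sum_univ_two, Matrix.add_apply]
    ring

theorem dn_one : dn (1 : M2 k) 0 = 1 := by
  ext i j
  · simp [dn_apply, Matrix.one_apply]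
    split_ifs <;> simp
  · simp [dn_apply, Matrix.one_apply]
    split_ifs <;> simp

end aux

section calculus

variable {k : Type} [Field k] (r : G →* GL (Fin 2) k)

theorem liftMat_eq_dn (c : G → M2 k) (g : G) : liftMat r c g = dn (rm r g) (c g * rm r g) := rfl

theorem rm_mul (g h : G) : rm r (g * h) = rm r g * rm r h := by
  simp [rm]

theorem rm_one : rm r 1 = 1 := by
  simp [rm]

theorem rm_mul_inv (g : G) : rm r g * (((r g)⁻¹ : GL (Fin 2) k) : M2 k) = 1 := by
  rw [rm, ← Units.val_mul, mul_inv_cancel, Units.val_one]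

theorem inv_mul_rm (g : G) : (((r g)⁻¹ : GL (Fin 2) k) : M2 k) * rm r g = 1 := by
  rw [rm, ← Units.val_mul, inv_mul_cancel, Units.val_one]

theorem mul_rm_cancel {X Y : M2 k} (g : G) (h : X * rm r g = Y * rm r g) : X = Y := by
  have := congrArg (· * (((r g)⁻¹ : GL (Fin 2) k) : M2 k)) h
  simp only [Matrix.mul_assoc, rm_mul_inv, Matrix.mul_one] at this
  exact this

theorem ad_mul_rm (g : G) (X : M2 k) : ad (r g) X * rm r g = rm r g * X := by
  rw [ad, Matrix.mul_assoc, inv_mul_rm, Matrix.mul_one]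
  rfl

/-- entries of `liftMat`. -/
theorem liftMat_apply (c : G → M2 k) (g : G) (i j : Fin 2) :
    liftMat r c g i j = TrivSqZeroExt.inl (rm r g i j) + TrivSqZeroExt.inr ((c g * rm r g) i j) := rfl

theorem liftMat_map_fst (c : G → M2 k) (g : G) :
    (liftMat r c g).map (TrivSqZeroExt.fst : DualNumber k → k) = rm r g := by
  rw [liftMat_eq_dn, dn_map_fst]

/-- `liftMat r` is injective in `c` (`r g` is invertible). -/
theorem liftMat_injective : Function.Injective (liftMat r) := by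
  intro c c' h
  funext g
  have h1 := congrFun h g
  rw [liftMat_eq_dn, liftMat_eq_dn, dn_inj] at h1
  exact mul_rm_cancel r g h1.2

/-- Every function reducing to `r` is a `liftMat`: take `c g = snd (s g) * (r g)⁻¹`. -/
theorem exists_eq_liftMat (s : G → M2 (DualNumber k))
    (hs : ∀ g, (s g).map (TrivSqZeroExt.fst : DualNumber k → k) = rm r g) :
    ∃ c, s = liftMat r c := by
  refine ⟨fun g => (s g).map TrivSqZeroExt.snd * (((r g)⁻¹ : GL (Fin 2) k) : M2 k), ?_⟩
  funext g
  rw [liftMat_eq_dn, Matrix.mul_assoc, inv_mul_rm, Matrix.mul_one, ← hs g]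
  exact eq_dn _

/-- `(1 + ε c) r` is multiplicative iff `c` is a cocycle.
(`(r g + ε c g r g)(r h + ε c h r h) = r g r h + ε (c g + r g c h (r g)⁻¹) r g r h`; entrywise with
`TrivSqZeroExt.ext`, `Matrix.mul_apply`, `Fin.sum_univ_two`.) -/
theorem liftMat_mul_iff (c : G → M2 k) :
    (∀ g h, liftMat r c (g * h) = liftMat r c g * liftMat r c h) ↔ IsCoc r c := by
  have key : ∀ g h, liftMat r c (g * h) = liftMat r c g * liftMat r c h ↔
      c (g * h) = c g + ad (r g) (c h) := by
    intro g h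
    rw [liftMat_eq_dn, liftMat_eq_dn, liftMat_eq_dn, dn_mul, dn_inj]
    have e : rm r g * (c h * rm r h) + c g * rm r g * rm r h =
        (c g + ad (r g) (c h)) * rm r (g * h) := by
      rw [rm_mul, Matrix.add_mul, ← Matrix.mul_assoc (ad (r g) (c h)), ad_mul_rm,
        Matrix.mul_assoc, Matrix.mul_assoc, add_comm]
    rw [e]
    constructor
    · rintro ⟨-, h2⟩
      exact mul_rm_cancel r _ h2
    · intro h2
      exact ⟨rm_mul r g h, by rw [h2]⟩
  exact forall₂_congr key

theorem IsCoc.map_one {c : G → M2 k} (hc : IsCoc r c) : c 1 = 0 := by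
  have h := hc 1 1
  rw [mul_one, _root_.map_one] at h
  have h2 : ad (1 : GL (Fin 2) k) (c 1) = c 1 := by simp [ad]
  rw [h2] at h
  simpa using h

theorem liftMat_one {c : G → M2 k} (hc : IsCoc r c) : liftMat r c 1 = 1 := by
  rw [liftMat_eq_dn, IsCoc.map_one r hc, rm_one, Matrix.zero_mul, dn_one]

/-- The matrix `1 + ε X`. -/
def onePlus (X : M2 k) : M2 (DualNumber k) :=
  1 + X.map (TrivSqZeroExt.inr : k → DualNumber k)

theorem onePlus_eq_dn (X : M2 k) : onePlus X = dn 1 X := by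
  rw [onePlus, ← dn_one]
  ext i j
  · simp [dn_apply]
  · simp [dn_apply]

theorem isUnit_onePlus (X : M2 k) : IsUnit (onePlus X) := by
  refine IsUnit.of_mul_eq_one (onePlus (-X)) ?_
  rw [onePlus_eq_dn, onePlus_eq_dn, dn_mul, ← dn_one, dn_inj]
  simp

/-- Conjugation by `1 + ε X` changes `c` by the coboundary of `X`:
`(1 + εX)(1 + ε c g) r g = (1 + ε (c g + X - r g X (r g)⁻¹)) r g (1 + εX)`. -/
theorem onePlus_mul_liftMat (c : G → M2 k) (X : M2 k) (g : G) :
    onePlus X * liftMat r c g = liftMat r (fun g => c g + (X - ad (r g) X)) g * onePlus X := by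
  rw [onePlus_eq_dn, liftMat_eq_dn, liftMat_eq_dn, dn_mul, dn_mul, dn_inj]
  refine ⟨by simp, ?_⟩
  rw [Matrix.one_mul, Matrix.mul_one, Matrix.add_mul, Matrix.sub_mul, ad_mul_rm]
  abel

/-- being cohomologous is symmetric. -/
theorem liftMat_sub_isCob_symm {c c' : G → M2 k} (h : IsCob r (c - c')) : IsCob r (c' - c) := by
  obtain ⟨X, hX⟩ := h
  refine ⟨-X, fun g => ?_⟩
  have := hX g
  simp only [Pi.sub_apply] at this ⊢
  rw [← neg_sub, this]
  simp only [ad, Matrix.mul_neg, Matrix.neg_mul]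
  abel

theorem isCob_trans {c c' c'' : G → M2 k} (h : IsCob r (c - c')) (h' : IsCob r (c' - c'')) :
    IsCob r (c - c'') := by
  obtain ⟨X, hX⟩ := h
  obtain ⟨Y, hY⟩ := h'
  refine ⟨X + Y, fun g => ?_⟩
  have h1 := hX g
  have h2 := hY g
  simp only [Pi.sub_apply] at h1 h2 ⊢
  rw [← sub_add_sub_cancel (c g) (c' g) (c'' g), h1, h2]
  simp only [ad, Matrix.mul_add, Matrix.add_mul]
  abel

/-- cohomologous cocycles give equivalent lifts (`HasMatrix.conj` with `P = 1 + εX`, then
`HasMatrix.isEquiv`). -/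
theorem isEquiv_of_isCob {ρ₁ ρ₂ : GaloisRepAdic (DualNumber k)} {c₁ c₂ : G → M2 k}
    (h₁ : HasMatrix ρ₁ (liftMat r c₁)) (h₂ : HasMatrix ρ₂ (liftMat r c₂)) (h : IsCob r (c₁ - c₂)) :
    ρ₁.IsEquiv ρ₂ := by
  obtain ⟨X, hX⟩ := h
  have hU := isUnit_onePlus X
  have h3 := h₁.conj (onePlus X) hU
  refine HasMatrix.isEquiv h3 ?_
  have e : (fun σ => onePlus X * liftMat r c₁ σ * (onePlus X)⁻¹) = liftMat r c₂ := by
    funext g
    rw [onePlus_mul_liftMat, Matrix.mul_assoc,
      Matrix.mul_nonsing_inv _ ((Matrix.isUnit_iff_isUnit_det _).mp hU), Matrix.mul_one]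
    have e2 : (fun g => c₁ g + (X - ad (r g) X)) = c₂ := by
      funext g
      have := hX g
      simp only [Pi.sub_apply] at this
      rw [← neg_sub (ad (r g) X) X, ← this]
      abel
    rw [e2]
  rw [e]
  exact h₂

end calculus

end Fermat.Agent.S56.C
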