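/-
S56 block (C): explicit local conditions on a cocycle `c : G → M₂(k)` (adjoint action through `r : G →* GL₂(k)`).
THESE ARE THE PROP SHAPES CONSUMED BY THE BLOCKS (Lq), (F), (GW).
-/
import Fermat.Agent.S56.C.Defs

set_option autoImplicit false

open IsLocalRing Matrix

noncomputable section

namespace Fermat.Agent.S56.C

open Fermat.Agent.S53 (G M2 HasMatrix HasMatrixRes dualAlg Cond)

section defs

variable {k : Type} [Field k] (r : G →* GL (Fin 2) k) (c : G → M2 k)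

/-- `c` vanishes on an open subgroup. -/
def Smooth : Prop :=
  ∃ L : IntermediateField ℚ (AlgebraicClosure ℚ), FiniteDimensional ℚ L ∧
    ∀ σ : G, (∀ x ∈ L, σ x = x) → c σ = 0

/-- values in `ad⁰`. -/
def TraceZero : Prop := ∀ g, (c g).trace = 0

/-- `c` vanishes on all inertia groups above `q`. -/
def UnramAt (q : ℕ) : Prop :=
  ∀ P : ValuationSubring (AlgebraicClosure ℚ), P.LiesOverPrime q →
    ∀ σ ∈ P.inertiaSubgroupIn ℚ, c σ = 0

/-- first order version of `tr = 2` on the inertia groups above `q`. -/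
def UnipAt (q : ℕ) : Prop :=
  ∀ P : ValuationSubring (AlgebraicClosure ℚ), P.LiesOverPrime q →
    ∀ σ ∈ P.inertiaSubgroupIn ℚ, (c σ * rm r σ).trace = 0

/-- The strict ordinary condition at `p`: for every `P ∣ p` there are a line `k v` stable under `r(D_P)` and a
matrix `X` such that the cohomologous cocycle `c' = c + (ad(r ·) X - X)` has, on `D_P`, values in
`Hom(k²/kv, kv)` (i.e. `c' σ` kills `v` and has image in `k v`).  The residual `r|D_P` is `(χ z, *; 0, z)`
(`χ` = cyclotomic character mod `p`), `z` unramified. -/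
def SOAt (p : ℕ) : Prop :=
  ∀ P : ValuationSubring (AlgebraicClosure ℚ), P.LiesOverPrime p →
    ∃ (v : Fin 2 → k) (X : M2 k), v ≠ 0 ∧
      (∀ σ ∈ P.decompositionSubgroup ℚ, ∃ x z : k, rm r σ *ᵥ v = x • v ∧
        (∀ w : Fin 2 → k, ∃ y : k, rm r σ *ᵥ w - z • w = y • v) ∧
        ∀ a : ℕ, (∀ μ : AlgebraicClosure ℚ, μ ^ p = 1 → σ μ = μ ^ a) → x = (a : k) * z) ∧
      (∀ σ ∈ P.inertiaSubgroupIn ℚ, ∀ w : Fin 2 → k, ∃ y : k, rm r σ *ᵥ w - w = y • v) ∧
      ∀ σ ∈ P.decompositionSubgroup ℚ,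
        (c σ + (ad (r σ) X - X)) *ᵥ v = 0 ∧
          ∀ w : Fin 2 → k, ∃ y : k, (c σ + (ad (r σ) X - X)) *ᵥ w = y • v

/-- The flat condition at `p` (to be analysed by block (F)). -/
def FlatAt (p : ℕ) : Prop :=
  ∃ ρ : GaloisRepAdic (DualNumber k), HasMatrix ρ (liftMat r c) ∧ ρ.IsFlatAt p

/-- Selmer cocycles, strict ordinary type. `S'` = allowed ramification (`Smin ∪ Q`). -/
structure IsSelSO (p : ℕ) (S' Smin : Finset ℕ) : Prop where
  coc : IsCoc r c
  smooth : Smooth c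
  tr0 : TraceZero c
  unram : ∀ q : ℕ, q.Prime → q ∉ S' → UnramAt c q
  unip : ∀ q ∈ Smin, q.Prime → q ≠ p → UnipAt r c q
  atp : SOAt r c p

/-- Selmer cocycles, flat type. -/
structure IsSelFl (p : ℕ) (S' Smin : Finset ℕ) : Prop where
  coc : IsCoc r c
  smooth : Smooth c
  tr0 : TraceZero c
  unram : ∀ q : ℕ, q.Prime → q ∉ S' → UnramAt c q
  unip : ∀ q ∈ Smin, q.Prime → q ≠ p → UnipAt r c q
  atp : FlatAt r c p

end defs

end Fermat.Agent.S56.C
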