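/-
S56 block (C), leaf C1a: few homs to the dual numbers => few generators of the maximal ideal.
-/
import Fermat.Agent.S56.C.Defs

set_option autoImplicit false

open IsLocalRing

noncomputable section

namespace Fermat.Agent.S56.C

open Fermat.Agent.S53 (dualAlg)

section aux

variable (𝒪 : Type) [CommRing 𝒪] [IsLocalRing 𝒪]
    (R : Type) [CommRing R] [IsLocalRing R] [Algebra 𝒪 R] [IsLocalHom (algebraMap 𝒪 R)]

/-- the ideal `𝔪_𝒪 R + 𝔪_R²` -/
def Cotangent.J : Ideal R := (maximalIdeal 𝒪).map (algebraMap 𝒪 R) ⊔ maximalIdeal R ^ 2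

theorem Cotangent.J_le : Cotangent.J 𝒪 R ≤ maximalIdeal R := by
  refine sup_le ?_ (Ideal.pow_le_self two_ne_zero)
  exact ((IsLocalRing.local_hom_TFAE (algebraMap 𝒪 R)).out 0 2).mp ‹_›

/-- (SEP) for `R`: an element of `𝔪_R` killed by all homs to the dual numbers lies in `J`. -/
theorem Cotangent.mem_J_of_forall
    (hres : Function.Surjective (IsLocalRing.residue R ∘ algebraMap 𝒪 R)) {x : R}
    (hx : letI := dualAlg 𝒪; ∀ φ : R →ₐ[𝒪] DualNumber (ResidueField 𝒪), φ x = 0) :
    x ∈ Cotangent.J 𝒪 R := by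
  classical
  letI := dualAlg 𝒪
  by_contra hxJ
  have hJtop : Cotangent.J 𝒪 R ≠ ⊤ := fun h =>
    (Ideal.IsPrime.ne_top inferInstance : maximalIdeal R ≠ ⊤) (top_le_iff.mp (h ▸ Cotangent.J_le 𝒪 R))
  have : Nontrivial (R ⧸ Cotangent.J 𝒪 R) := Ideal.Quotient.nontrivial_iff.mpr hJtop
  have hloc : IsLocalRing (R ⧸ Cotangent.J 𝒪 R) :=
    IsLocalRing.of_surjective' (Ideal.Quotient.mk (Cotangent.J 𝒪 R)) Ideal.Quotient.mk_surjective
  -- `mk` reflects units
  have hunit : ∀ y : R, IsUnit (Ideal.Quotient.mk (Cotangent.J 𝒪 R) y) → IsUnit y := by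
    intro y hy
    by_contra hyn
    obtain ⟨z, hz⟩ := hy.exists_right_inv
    obtain ⟨z, rfl⟩ := Ideal.Quotient.mk_surjective z
    rw [← map_mul, ← map_one (Ideal.Quotient.mk (Cotangent.J 𝒪 R)),
      Ideal.Quotient.mk_eq_mk_iff_sub_mem] at hz
    have h1 : y * z ∈ maximalIdeal R := Ideal.mul_mem_right _ _ hyn
    have h2 : (1 : R) ∈ maximalIdeal R := by
      have h3 := (maximalIdeal R).sub_mem h1 (Cotangent.J_le 𝒪 R hz)
      rwa [sub_sub_cancel] at h3
    exact (Ideal.ne_top_iff_one _).mp (Ideal.IsPrime.ne_top inferInstance) h2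
  have hmemA : ∀ y : R, Ideal.Quotient.mk (Cotangent.J 𝒪 R) y ∈ maximalIdeal (R ⧸ Cotangent.J 𝒪 R) ↔
      y ∈ maximalIdeal R := by
    intro y
    rw [mem_maximalIdeal, mem_maximalIdeal, mem_nonunits_iff, mem_nonunits_iff, not_iff_not]
    exact ⟨hunit y, fun h => h.map _⟩
  have hlh : IsLocalHom (algebraMap 𝒪 (R ⧸ Cotangent.J 𝒪 R)) := by
    refine ⟨fun c hc => ?_⟩
    exact isUnit_of_map_unit (algebraMap 𝒪 R) c (hunit _ hc)
  obtain ⟨φ, hφ⟩ := Fermat.Agent.S53.exists_algHom_dualNumber_ne_zero 𝒪 (A := R ⧸ Cotangent.J 𝒪 R)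
    (by
      intro y
      obtain ⟨y, rfl⟩ := IsLocalRing.residue_surjective y
      obtain ⟨y, rfl⟩ := Ideal.Quotient.mk_surjective y
      obtain ⟨c, hc⟩ := hres (IsLocalRing.residue R y)
      refine ⟨c, ?_⟩
      have hc' : IsLocalRing.residue R (algebraMap 𝒪 R c) = IsLocalRing.residue R y := hc
      have h1 : algebraMap 𝒪 R c - y ∈ maximalIdeal R := by
        rw [← IsLocalRing.residue_eq_zero_iff, map_sub, hc', sub_self]
      have h2 := (hmemA _).mpr h1
      rw [← IsLocalRing.residue_eq_zero_iff, map_sub, map_sub, sub_eq_zero] at h2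
      exact h2)
    (by
      intro c hc
      change Ideal.Quotient.mk (Cotangent.J 𝒪 R) (algebraMap 𝒪 R c) = 0
      rw [Ideal.Quotient.eq_zero_iff_mem]
      exact le_sup_left (a := (maximalIdeal 𝒪).map (algebraMap 𝒪 R)) (Ideal.mem_map_of_mem _ hc))
    (by
      intro a ha b hb
      obtain ⟨a, rfl⟩ := Ideal.Quotient.mk_surjective a
      obtain ⟨b, rfl⟩ := Ideal.Quotient.mk_surjective b
      rw [← map_mul, Ideal.Quotient.eq_zero_iff_mem]
      refine le_sup_right (b := maximalIdeal R ^ 2) ?_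
      rw [pow_two]
      exact Ideal.mul_mem_mul ((hmemA a).mp ha) ((hmemA b).mp hb))
    (Ideal.Quotient.mk (Cotangent.J 𝒪 R) x) (by rwa [Ne, Ideal.Quotient.eq_zero_iff_mem])
  exact hφ (hx (φ.comp (Ideal.Quotient.mkₐ 𝒪 (Cotangent.J 𝒪 R))))

end aux


section der

variable (𝒪 : Type) [CommRing 𝒪] [IsLocalRing 𝒪]
    (R : Type) [CommRing R] [IsLocalRing R] [Algebra 𝒪 R] [IsLocalHom (algebraMap 𝒪 R)]

/-- existence of the reduction map `R → k`. -/
theorem Cotangent.exists_res (hres : Function.Surjective (IsLocalRing.residue R ∘ algebraMap 𝒪 R)) :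
    ∃ res : R →+* ResidueField 𝒪, (∀ c : 𝒪, res (algebraMap 𝒪 R c) = residue 𝒪 c) ∧
      ∀ x : R, res x = 0 ↔ x ∈ maximalIdeal R := by
  have hbij : Function.Bijective (ResidueField.map (algebraMap 𝒪 R)) := by
    refine ⟨RingHom.injective _, fun y => ?_⟩
    obtain ⟨c, hc⟩ := hres y
    exact ⟨residue 𝒪 c, by rw [ResidueField.map_residue]; exact hc⟩
  let e : ResidueField 𝒪 ≃+* ResidueField R := RingEquiv.ofBijective _ hbij
  refine ⟨(e.symm : ResidueField R →+* ResidueField 𝒪).comp (residue R), ?_, ?_⟩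
  · intro c
    show e.symm (residue R (algebraMap 𝒪 R c)) = residue 𝒪 c
    rw [RingEquiv.symm_apply_eq]
    exact (ResidueField.map_residue (algebraMap 𝒪 R) c).symm
  · intro x
    show e.symm (residue R x) = 0 ↔ _
    rw [map_eq_zero_iff _ e.symm.injective, residue_eq_zero_iff]

variable {𝒪 R}

/-- the `k`-vector space of `𝒪`-derivations `R → k`. -/
def Cotangent.Der (res : R →+* ResidueField 𝒪) : Submodule (ResidueField 𝒪) (R → ResidueField 𝒪) where
  carrier := {δ | (∀ x y, δ (x + y) = δ x + δ y) ∧ (∀ x y, δ (x * y) = res x * δ y + res y * δ x) ∧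
    ∀ c : 𝒪, δ (algebraMap 𝒪 R c) = 0}
  add_mem' := by
    rintro a b ⟨ha1, ha2, ha3⟩ ⟨hb1, hb2, hb3⟩
    refine ⟨fun x y => ?_, fun x y => ?_, fun c => ?_⟩
    · simp only [Pi.add_apply, ha1, hb1]; ring
    · simp only [Pi.add_apply, ha2, hb2]; ring
    · simp only [Pi.add_apply, ha3, hb3, add_zero]
  zero_mem' := ⟨fun _ _ => by simp, fun _ _ => by simp, fun _ => rfl⟩
  smul_mem' := by
    rintro s a ⟨ha1, ha2, ha3⟩
    refine ⟨fun x y => ?_, fun x y => ?_, fun c => ?_⟩
    · simp only [Pi.smul_apply, ha1, smul_eq_mul]; ring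
    · simp only [Pi.smul_apply, ha2, smul_eq_mul]; ring
    · simp only [Pi.smul_apply, ha3, smul_zero]

/-- the hom to the dual numbers attached to a derivation -/
def Cotangent.homOf (res : R →+* ResidueField 𝒪)
    (hresalg : ∀ c : 𝒪, res (algebraMap 𝒪 R c) = residue 𝒪 c) (δ : Cotangent.Der res) :
    letI := dualAlg 𝒪; R →ₐ[𝒪] DualNumber (ResidueField 𝒪) :=
  letI := dualAlg 𝒪
  have halg : ∀ c : 𝒪, (TrivSqZeroExt.inl (res (algebraMap 𝒪 R c)) +
      TrivSqZeroExt.inr (δ.1 (algebraMap 𝒪 R c)) : DualNumber (ResidueField 𝒪)) =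
      algebraMap 𝒪 (DualNumber (ResidueField 𝒪)) c := by
    intro c
    rw [hresalg, δ.2.2.2 c, TrivSqZeroExt.inr_zero, add_zero]
    rfl
  { toFun := fun x => TrivSqZeroExt.inl (res x) + TrivSqZeroExt.inr (δ.1 x)
    map_one' := by
      have := halg 1
      rwa [map_one (algebraMap 𝒪 R), map_one (algebraMap 𝒪 (DualNumber (ResidueField 𝒪)))] at this
    map_mul' := by
      intro x y
      ext
      · simp
      · simp only [δ.2.2.1 x y, TrivSqZeroExt.snd_add, TrivSqZeroExt.snd_inl,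
          TrivSqZeroExt.snd_inr, TrivSqZeroExt.snd_mul, TrivSqZeroExt.fst_add, TrivSqZeroExt.fst_inl,
          TrivSqZeroExt.fst_inr, smul_eq_mul, zero_add, add_zero, MulOpposite.smul_eq_mul_unop,
          MulOpposite.unop_op]
        ring
    map_zero' := by
      have := halg 0
      rwa [map_zero (algebraMap 𝒪 R), map_zero (algebraMap 𝒪 (DualNumber (ResidueField 𝒪)))] at this
    map_add' := by
      intro x y
      ext
      · simp
      · simp [δ.2.1 x y]
    commutes' := halg }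

omit [IsLocalRing R] [IsLocalHom (algebraMap 𝒪 R)] in
theorem Cotangent.snd_homOf (res : R →+* ResidueField 𝒪)
    (hresalg : ∀ c : 𝒪, res (algebraMap 𝒪 R c) = residue 𝒪 c) (δ : Cotangent.Der res) (x : R) :
    TrivSqZeroExt.snd (Cotangent.homOf res hresalg δ x) = δ.1 x := by
  simp [Cotangent.homOf]

/-- the first component of a hom to the dual numbers is the reduction map. -/
theorem Cotangent.fst_hom (hres : Function.Surjective (IsLocalRing.residue R ∘ algebraMap 𝒪 R))
    (res : R →+* ResidueField 𝒪)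
    (hresalg : ∀ c : 𝒪, res (algebraMap 𝒪 R c) = residue 𝒪 c)
    (hres0 : ∀ x : R, res x = 0 ↔ x ∈ maximalIdeal R)
    (φ : letI := dualAlg 𝒪; R →ₐ[𝒪] DualNumber (ResidueField 𝒪)) (x : R) :
    TrivSqZeroExt.fst (φ x) = res x := by
  letI := dualAlg 𝒪
  have hc : ∀ c : 𝒪, TrivSqZeroExt.fst (φ (algebraMap 𝒪 R c)) = residue 𝒪 c := by
    intro c
    rw [φ.commutes]
    rfl
  -- on the maximal ideal
  have hm : ∀ m ∈ maximalIdeal R, TrivSqZeroExt.fst (φ m) = 0 := by
    intro m hm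
    by_contra h0
    obtain ⟨c, hc'⟩ := residue_surjective (TrivSqZeroExt.fst (φ m))
    have hcu : IsUnit c := by
      by_contra hcn
      exact h0 (by rw [← hc']; exact (residue_eq_zero_iff c).mpr hcn)
    have hu : IsUnit (m - algebraMap 𝒪 R c) := by
      by_contra hn
      have h1 : m - algebraMap 𝒪 R c ∈ maximalIdeal R := hn
      have h2 : algebraMap 𝒪 R c ∈ maximalIdeal R := by
        have := (maximalIdeal R).sub_mem hm h1
        simpa using this
      exact h2 (hcu.map _)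
    have h3 : IsUnit (TrivSqZeroExt.fst (φ (m - algebraMap 𝒪 R c))) :=
      (hu.map φ).map (TrivSqZeroExt.fstHom (ResidueField 𝒪) (ResidueField 𝒪) (ResidueField 𝒪))
    rw [map_sub, TrivSqZeroExt.fst_sub, hc, hc', sub_self] at h3
    exact not_isUnit_zero h3
  obtain ⟨c, hc'⟩ := hres (residue R x)
  have hc'' : residue R (algebraMap 𝒪 R c) = residue R x := hc'
  have hmem : x - algebraMap 𝒪 R c ∈ maximalIdeal R := by
    rw [← residue_eq_zero_iff, map_sub, hc'', sub_self]
  have h1 := hm _ hmem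
  have h2 := (hres0 _).mpr hmem
  rw [map_sub, TrivSqZeroExt.fst_sub, hc, sub_eq_zero] at h1
  rw [map_sub, hresalg, sub_eq_zero] at h2
  rw [h1, h2]

/-- the derivation attached to a hom -/
theorem Cotangent.snd_mem_Der (hres : Function.Surjective (IsLocalRing.residue R ∘ algebraMap 𝒪 R))
    (res : R →+* ResidueField 𝒪)
    (hresalg : ∀ c : 𝒪, res (algebraMap 𝒪 R c) = residue 𝒪 c)
    (hres0 : ∀ x : R, res x = 0 ↔ x ∈ maximalIdeal R)
    (φ : letI := dualAlg 𝒪; R →ₐ[𝒪] DualNumber (ResidueField 𝒪)) :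
    (fun x => TrivSqZeroExt.snd (φ x)) ∈ Cotangent.Der (𝒪 := 𝒪) res := by
  letI := dualAlg 𝒪
  refine ⟨fun x y => ?_, fun x y => ?_, fun c => ?_⟩
  · simp only [map_add, TrivSqZeroExt.snd_add]
  · simp only [map_mul, TrivSqZeroExt.snd_mul, Cotangent.fst_hom hres res hresalg hres0, smul_eq_mul,
      MulOpposite.smul_eq_mul_unop, MulOpposite.unop_op]
    ring
  · simp only [φ.commutes]
    rfl

end der


/-- (C1a) `R` a noetherian local `𝒪`-algebra with residue field `k = 𝒪/𝔪` (finite).  If there are at most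
`|k|^n` homs of `𝒪`-algebras `R → k[ε]` then `𝔪_R` is generated by `n` elements modulo `𝔪_𝒪 R + 𝔪_R²`.

PROOF SKETCH.  `J := 𝔪_𝒪 R + 𝔪_R²`, `A := R ⧸ J` is a local `𝒪`-algebra killed by `𝔪_𝒪` with `𝔪_A² = 0`; it is a
`k`-vector space `A = k ⊕ t`, `t = 𝔪_A` (section `ι : k → A`, retraction `res : A → k` exactly as in the proof of
`S53.exists_algHom_dualNumber_ne_zero`, copy it).  For a `k`-linear form `g` on `A` the map
`x ↦ inl (res x) + inr (g (x - ι (res x)))` is an `𝒪`-algebra hom `A → k[ε]` (same proof), and two forms with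
different restrictions to `t` give different homs; compose with `R → A`.  `t` is finite dimensional
(`R` noetherian, or: otherwise there are infinitely many homs), so `|k|^(dim t) ≤ #Hom ≤ |k|^n`, so
`dim t ≤ n` (`|k| ≥ 2`, `Nat.pow_le_pow_iff_right`).  Take a spanning family of `t` indexed by `Fin n`
(basis padded by zeros), lift it to `𝔪_R`. -/
theorem exists_generators (𝒪 : Type) [CommRing 𝒪] [IsLocalRing 𝒪] [Finite (ResidueField 𝒪)]
    (R : Type) [CommRing R] [IsLocalRing R] [IsNoetherianRing R] [Algebra 𝒪 R]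
    [IsLocalHom (algebraMap 𝒪 R)]
    (hres : Function.Surjective (IsLocalRing.residue R ∘ algebraMap 𝒪 R)) (n : ℕ)
    (hfin : letI := dualAlg 𝒪; Finite (R →ₐ[𝒪] DualNumber (ResidueField 𝒪)))
    (hcard : letI := dualAlg 𝒪
      Nat.card (R →ₐ[𝒪] DualNumber (ResidueField 𝒪)) ≤ Nat.card (ResidueField 𝒪) ^ n) :
    ∃ y : Fin n → R, (∀ i, y i ∈ maximalIdeal R) ∧
      maximalIdeal R ≤ Ideal.span (Set.range y) ⊔ (maximalIdeal 𝒪).map (algebraMap 𝒪 R) ⊔
        maximalIdeal R ^ 2 := by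
  classical
  letI := dualAlg 𝒪
  obtain ⟨res, hresalg, hres0⟩ := Cotangent.exists_res 𝒪 R hres
  have hinj : Function.Injective (Cotangent.homOf res hresalg) := by
    intro δ δ' h
    apply Subtype.ext
    funext x
    rw [← Cotangent.snd_homOf res hresalg δ x, h, Cotangent.snd_homOf]
  have hfinD : Finite (Cotangent.Der (𝒪 := 𝒪) res) := Finite.of_injective _ hinj
  have hcardD : Nat.card (Cotangent.Der (𝒪 := 𝒪) res) ≤ Nat.card (ResidueField 𝒪) ^ n :=
    (Nat.card_le_card_of_injective _ hinj).trans hcard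
  have hmf : Module.Finite (ResidueField 𝒪) (Cotangent.Der (𝒪 := 𝒪) res) := Module.Finite.of_finite
  have hdim : Module.finrank (ResidueField 𝒪) (Cotangent.Der (𝒪 := 𝒪) res) ≤ n := by
    have h1 := Module.natCard_eq_pow_finrank (K := ResidueField 𝒪) (V := Cotangent.Der (𝒪 := 𝒪) res)
    rw [h1] at hcardD
    exact (Nat.pow_le_pow_iff_right Finite.one_lt_card).mp hcardD
  -- evaluation
  let evA : R →+ Module.Dual (ResidueField 𝒪) (Cotangent.Der (𝒪 := 𝒪) res) :=
    { toFun := fun x => (LinearMap.proj x).comp (Cotangent.Der (𝒪 := 𝒪) res).subtype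
      map_zero' := by
        ext δ
        have h := δ.2.1 0 0
        rw [add_zero] at h
        simpa using h
      map_add' := by
        intro x y
        ext δ
        exact δ.2.1 x y }
  have hev : ∀ (x : R) (δ : Cotangent.Der (𝒪 := 𝒪) res), evA x δ = δ.1 x := fun _ _ => rfl
  have hevsmul : ∀ (c : 𝒪) (x : R), x ∈ maximalIdeal R →
      evA (algebraMap 𝒪 R c * x) = residue 𝒪 c • evA x := by
    intro c x hx
    ext δ
    rw [hev, LinearMap.smul_apply, hev, δ.2.2.1, hresalg, (hres0 x).mpr hx, zero_mul, add_zero,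
      smul_eq_mul]
  obtain ⟨T, hT⟩ : ∃ T : Submodule (ResidueField 𝒪)
      (Module.Dual (ResidueField 𝒪) (Cotangent.Der (𝒪 := 𝒪) res)),
      ∀ f, f ∈ T ↔ ∃ x ∈ maximalIdeal R, evA x = f :=
    ⟨{ carrier := {f | ∃ x ∈ maximalIdeal R, evA x = f}
       add_mem' := by
        rintro _ _ ⟨x, hx, rfl⟩ ⟨y, hy, rfl⟩
        exact ⟨x + y, Ideal.add_mem _ hx hy, map_add _ _ _⟩
       zero_mem' := ⟨0, Ideal.zero_mem _, map_zero _⟩
       smul_mem' := by
        rintro s _ ⟨x, hx, rfl⟩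
        obtain ⟨c, rfl⟩ := residue_surjective s
        exact ⟨algebraMap 𝒪 R c * x, Ideal.mul_mem_left _ _ hx, hevsmul c x hx⟩ }, fun _ => Iff.rfl⟩
  have hTdim : Module.finrank (ResidueField 𝒪) T ≤ n :=
    (Submodule.finrank_le T).trans (by rw [Subspace.dual_finrank_eq]; exact hdim)
  have hfree : Module.Free (ResidueField 𝒪) T := Module.Free.of_divisionRing (ResidueField 𝒪) T
  let b := Module.finBasis (ResidueField 𝒪) T
  have hb : ∀ i, ∃ x ∈ maximalIdeal R, evA x = (b i : Module.Dual (ResidueField 𝒪) _) :=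
    fun i => (hT _).mp (b i).2
  choose y' hy'm hy' using hb
  refine ⟨fun i => if h : i.1 < Module.finrank (ResidueField 𝒪) T then y' ⟨i.1, h⟩ else 0, ?_, ?_⟩
  · intro i
    dsimp only
    split_ifs with h
    · exact hy'm _
    · exact Ideal.zero_mem _
  · intro x hx
    have hy'span : ∀ i, y' i ∈ Ideal.span (Set.range fun i : Fin n =>
        if h : i.1 < Module.finrank (ResidueField 𝒪) T then y' ⟨i.1, h⟩ else 0) := by
      intro i
      refine Ideal.subset_span ⟨⟨i.1, i.2.trans_le hTdim⟩, ?_⟩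
      simp only [i.2, dif_pos]
    have hrep := b.sum_repr ⟨evA x, (hT _).mpr ⟨x, hx, rfl⟩⟩
    have hc : ∀ i, ∃ c : 𝒪, residue 𝒪 c = b.repr ⟨evA x, (hT _).mpr ⟨x, hx, rfl⟩⟩ i :=
      fun i => residue_surjective _
    choose c hc using hc
    have hsummem : ∑ i, algebraMap 𝒪 R (c i) * y' i ∈ maximalIdeal R :=
      Ideal.sum_mem _ fun i _ => Ideal.mul_mem_left _ _ (hy'm i)
    have hz : x - ∑ i, algebraMap 𝒪 R (c i) * y' i ∈ Cotangent.J 𝒪 R := by
      apply Cotangent.mem_J_of_forall 𝒪 R hres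
      intro φ
      have hzm : x - ∑ i, algebraMap 𝒪 R (c i) * y' i ∈ maximalIdeal R := Ideal.sub_mem _ hx hsummem
      have hevz : evA (x - ∑ i, algebraMap 𝒪 R (c i) * y' i) = 0 := by
        rw [map_sub, map_sum, sub_eq_zero]
        have h1 : ((∑ i, b.repr ⟨evA x, (hT _).mpr ⟨x, hx, rfl⟩⟩ i • b i : T) :
            Module.Dual (ResidueField 𝒪) (Cotangent.Der (𝒪 := 𝒪) res)) = evA x :=
          congrArg Subtype.val hrep
        rw [← h1]
        simp only [Submodule.coe_sum, Submodule.coe_smul]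
        refine Finset.sum_congr rfl fun i _ => ?_
        rw [hevsmul _ _ (hy'm i), hc, hy']
      ext
      · rw [Cotangent.fst_hom hres res hresalg hres0, (hres0 _).mpr hzm]
        rfl
      · have h2 := DFunLike.congr_fun hevz
          ⟨_, Cotangent.snd_mem_Der hres res hresalg hres0 φ⟩
        exact h2
    have hx' : x = ∑ i, algebraMap 𝒪 R (c i) * y' i + (x - ∑ i, algebraMap 𝒪 R (c i) * y' i) := by ring
    rw [hx', sup_assoc]
    exact Ideal.add_mem _
      (Ideal.mem_sup_left (Ideal.sum_mem _ fun i _ => Ideal.mul_mem_left _ _ (hy'span i)))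
      (Ideal.mem_sup_right hz)

end Fermat.Agent.S56.C
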