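/-
S56 block (C), leaf: matrix form of a residual representation.
-/
import Fermat.Agent.S56.C.Defs

set_option autoImplicit false

open IsLocalRing Matrix

noncomputable section

namespace Fermat.Agent.S56.C

open Fermat.Agent.S53 (G M2 HasMatrix HasMatrixRes dualAlg Cond)

/-- matrix form of a residual representation, as a hom to `GL₂(k)`.
(`S53.exists_hasMatrixRes`; the matrices are invertible because `ρ σ * ρ σ⁻¹ = 1`;
`Matrix.GeneralLinearGroup` / `MonoidHom.toHomUnits`.) -/
theorem exists_rm {k : Type} [Field k] (ρbar : ResidualGaloisRep k) :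
    ∃ r : G →* GL (Fin 2) k, HasMatrixRes ρbar (rm r) := by
  let b := Module.finBasisOfFinrankEq k ρbar.V ρbar.finrank_eq
  let m : G →* M2 k :=
    ((LinearMap.toMatrixAlgEquiv b : Module.End k ρbar.V ≃ₐ[k] M2 k) :
      Module.End k ρbar.V →* M2 k).comp ρbar.ρ
  exact ⟨m.toHomUnits, b, fun σ => rfl⟩

end Fermat.Agent.S56.C
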