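/-
S56 block (C), leaf C2a-NF: normal form of a lift of `ρbar` to the dual numbers.
-/
import Fermat.Agent.S56.C.LiftForm

set_option autoImplicit false

open IsLocalRing Matrix

noncomputable section

namespace Fermat.Agent.S56.C

open Fermat.Agent.S53 (G M2 HasMatrix HasMatrixRes dualAlg Cond)

section normalform

variable (𝒪 : Type) [CommRing 𝒪] [IsLocalRing 𝒪] [Finite (ResidueField 𝒪)]

/-- `algebraMap 𝒪 k[ε]` is local (`S53.Rep.isTest_dualNumber`). -/
theorem isLocalHom_dualAlg :
    letI := dualAlg 𝒪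
    IsLocalHom (algebraMap 𝒪 (DualNumber (ResidueField 𝒪))) :=
  letI := dualAlg 𝒪
  (Fermat.Agent.S53.Rep.isTest_dualNumber (𝒪 := 𝒪)).isLocalHom

/-- (C2a-NF) a lift of `ρbar` to `k[ε]` has matrix `(1 + ε c) r` in a suitable basis.

PROOF SKETCH.  `s` with `HasMatrix ρ' s` (`S53.exists_hasMatrix`).  `HasMatrix.residual`:
`HasMatrixRes ρ'.residual (s ·).map residue`; `hr.baseChangeAlong _` + `HasMatrixRes.of_isEquiv h.symm`-type
transport + `HasMatrixRes.exists_conj`: a unit `Pbar` over `ResidueField k[ε]` with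
`Pbar * (s σ).map residue = ((rm r σ).map _) * Pbar`.  Lift the entries of `Pbar` to `P : M₂(k[ε])`
(`residue_surjective`); `det P` is a unit since its residue is.  `HasMatrix.conj`: `HasMatrix ρ' (P s P⁻¹)`.
`residue ((P s σ P⁻¹) i j) = ResidueField.map _ (rm r σ i j) = residue (inl (rm r σ i j))`, so the difference lies in
the maximal ideal, i.e. has `fst = 0` (`S53.Rep.dualNumber_mem_maximalIdeal`).  Conclude with
`exists_eq_liftMat`, and `IsCoc` from `HasMatrix.isMatRep` + `liftMat_mul_iff`. -/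
theorem exists_isCoc_hasMatrix (ρbar : ResidualGaloisRep (ResidueField 𝒪))
    (r : G →* GL (Fin 2) (ResidueField 𝒪)) (hr : HasMatrixRes ρbar (rm r))
    (ρ' : GaloisRepAdic (DualNumber (ResidueField 𝒪)))
    (h : letI := dualAlg 𝒪
      haveI := isLocalHom_dualAlg 𝒪
      ρ'.residual.IsEquiv (ρbar.baseChangeAlong
        (IsLocalRing.ResidueField.map (algebraMap 𝒪 (DualNumber (ResidueField 𝒪)))))) :
    ∃ c, IsCoc r c ∧ HasMatrix ρ' (liftMat r c) := by
  letI := dualAlg 𝒪
  haveI := isLocalHom_dualAlg 𝒪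
  set μ := IsLocalRing.ResidueField.map (algebraMap 𝒪 (DualNumber (ResidueField 𝒪))) with hμ
  have hμinl : ∀ x : ResidueField 𝒪,
      μ x = residue (DualNumber (ResidueField 𝒪)) (TrivSqZeroExt.inl x) := by
    intro x
    obtain ⟨o, rfl⟩ := residue_surjective x
    rfl
  obtain ⟨s, hs⟩ := Fermat.Agent.S53.exists_hasMatrix ρ'
  have h1 := hs.residual.of_isEquiv h
  have h2 := hr.baseChangeAlong μ
  obtain ⟨Pbar, hPbar, hconj⟩ := h1.exists_conj h2
  -- lift `Pbar`
  have hlift : ∃ P : M2 (DualNumber (ResidueField 𝒪)),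
      P.map (residue (DualNumber (ResidueField 𝒪))) = Pbar := by
    refine ⟨Matrix.of fun i j => (residue_surjective (Pbar i j)).choose, ?_⟩
    ext i j
    exact (residue_surjective (Pbar i j)).choose_spec
  obtain ⟨P, hP⟩ := hlift
  have hPdet : IsUnit P.det := by
    have h3 : IsUnit (residue (DualNumber (ResidueField 𝒪)) P.det) := by
      rw [RingHom.map_det, RingHom.mapMatrix_apply, hP]
      exact (Matrix.isUnit_iff_isUnit_det Pbar).mp hPbar
    exact isUnit_of_map_unit (residue (DualNumber (ResidueField 𝒪))) _ h3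
  have hPunit : IsUnit P := (Matrix.isUnit_iff_isUnit_det P).mpr hPdet
  have h4 := hs.conj P hPunit
  have hres : ∀ g, (P * s g * P⁻¹).map (residue (DualNumber (ResidueField 𝒪))) =
      (rm r g).map μ := by
    intro g
    have e1 : Pbar * (P⁻¹).map (residue (DualNumber (ResidueField 𝒪))) = 1 := by
      rw [← hP, ← Matrix.map_mul, Matrix.mul_nonsing_inv P hPdet]
      exact Matrix.map_one _ (map_zero _) (map_one _)
    rw [Matrix.map_mul, Matrix.map_mul, hP, hconj g, Matrix.mul_assoc, e1, Matrix.mul_one]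
  have hfst : ∀ g, (P * s g * P⁻¹).map
      (TrivSqZeroExt.fst : DualNumber (ResidueField 𝒪) → ResidueField 𝒪) = rm r g := by
    intro g
    ext i j
    have e2 := congrFun (congrFun (hres g) i) j
    rw [Matrix.map_apply, Matrix.map_apply, hμinl, ← sub_eq_zero, ← map_sub,
      residue_eq_zero_iff, Fermat.Agent.S53.Rep.dualNumber_mem_maximalIdeal,
      TrivSqZeroExt.fst_sub, TrivSqZeroExt.fst_inl, sub_eq_zero] at e2
    rw [Matrix.map_apply]
    exact e2
  obtain ⟨c, hc⟩ := exists_eq_liftMat r (fun g => P * s g * P⁻¹) hfst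
  rw [hc] at h4
  exact ⟨c, (liftMat_mul_iff r c).mp h4.isMatRep.map_mul, h4⟩

end normalform

end Fermat.Agent.S56.C
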