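/-
S56 block (C), leaf C2b-alg: algebra of homs `R → k[ε]`.
-/
import Fermat.Agent.S56.C.LiftNF

set_option autoImplicit false

open IsLocalRing Matrix

noncomputable section

namespace Fermat.Agent.S56.C

open Fermat.Agent.S53 (G M2 HasMatrix HasMatrixRes dualAlg Cond)

section instances

variable (k : Type) [Field k] [Finite k]

/-- `k[ε]` is noetherian (finite ring). -/
theorem isNoetherianRing_dualNumber : IsNoetherianRing (DualNumber k) := by
  have : Finite (DualNumber k) := inferInstanceAs (Finite (k × k))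
  infer_instance

omit [Finite k] in
theorem HomAlg_maximalIdeal_sq : maximalIdeal (DualNumber k) ^ 2 = ⊥ := by
  rw [eq_bot_iff, sq, Ideal.mul_le]
  intro x hx y hy
  rw [S53.Rep.dualNumber_mem_maximalIdeal] at hx hy
  rw [Ideal.mem_bot]
  apply TrivSqZeroExt.ext
  · rw [TrivSqZeroExt.fst_mul, hx, zero_mul, TrivSqZeroExt.fst_zero]
  · rw [TrivSqZeroExt.snd_mul, hx, hy]
    simp

/-- `k[ε]` is complete (`𝔪² = 0`: `S53.Rep.dualNumber_mem_maximalIdeal`; Hausdorff: `n = 2`; precomplete: the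
limit of `f` is `f 2`). -/
theorem isAdicComplete_dualNumber :
    IsAdicComplete (maximalIdeal (DualNumber k)) (DualNumber k) := by
  have h2 : (maximalIdeal (DualNumber k) ^ 2 • ⊤ : Submodule (DualNumber k) (DualNumber k)) = ⊥ := by
    rw [HomAlg_maximalIdeal_sq, Submodule.bot_smul]
  have hH : IsHausdorff (maximalIdeal (DualNumber k)) (DualNumber k) := by
    refine ⟨fun x hx => ?_⟩
    have := hx 2
    rwa [h2, SModEq.bot] at this
  have hP : IsPrecomplete (maximalIdeal (DualNumber k)) (DualNumber k) := by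
    refine ⟨fun f hf => ⟨f 2, fun n => ?_⟩⟩
    rcases le_total n 2 with hn | hn
    · exact hf hn
    · have := hf hn
      rw [h2, SModEq.bot] at this
      rw [this]
      exact SModEq.refl _
  exact { hH, hP with }

end instances

section alg

variable (𝒪 : Type) [CommRing 𝒪] [IsLocalRing 𝒪] [Finite (ResidueField 𝒪)]
  (R : Type) [CommRing R] [IsLocalRing R] [Algebra 𝒪 R] [IsLocalHom (algebraMap 𝒪 R)]

/-- every `𝒪`-algebra hom `R → k[ε]` is local (`S53.Rep.isLocalHom_algHom` + `isTest_dualNumber`). -/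
theorem isLocalHom_toDual :
    letI := dualAlg 𝒪
    ∀ φ : R →ₐ[𝒪] DualNumber (ResidueField 𝒪),
      IsLocalHom (φ : R →+* DualNumber (ResidueField 𝒪)) := by
  letI := dualAlg 𝒪
  intro φ
  exact S53.Rep.isLocalHom_algHom (S53.Rep.isTest_dualNumber (𝒪 := 𝒪)).residue_surjective φ

/-- Two NON surjective `𝒪`-algebra homs `R → k[ε]` are equal.

PROOF SKETCH.  The image of `φ` contains `inl k` (image of `𝒪`).  If `φ x` has `snd ≠ 0` for some `x ∈ 𝔪_R`
(then `fst (φ x) = 0` as `φ` is local) then `inr a = φ(o) * φ x` for suitable `o : 𝒪`, so `φ` is onto.  So a non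
surjective `φ` kills `𝔪_R`; every `x : R` is `algebraMap o + m`, `m ∈ 𝔪_R` (`hres`), so
`φ x = algebraMap 𝒪 _ o` does not depend on `φ`. -/
theorem eq_of_not_surjective
    (hres : Function.Surjective (IsLocalRing.residue R ∘ algebraMap 𝒪 R)) :
    letI := dualAlg 𝒪
    ∀ φ φ' : R →ₐ[𝒪] DualNumber (ResidueField 𝒪),
      ¬ Function.Surjective φ → ¬ Function.Surjective φ' → φ = φ' := by
  letI := dualAlg 𝒪
  have hkill : ∀ φ : R →ₐ[𝒪] DualNumber (ResidueField 𝒪), ¬ Function.Surjective φ →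
      ∀ x ∈ maximalIdeal R, φ x = 0 := by
    intro φ hφ x hx
    by_contra hne
    apply hφ
    have hloc := isLocalHom_toDual 𝒪 R φ
    have hfst : (φ x).fst = 0 := by
      rw [← S53.Rep.dualNumber_mem_maximalIdeal, mem_maximalIdeal, mem_nonunits_iff]
      intro hu
      exact hx (hloc.map_nonunit x hu)
    have hsnd : (φ x).snd ≠ 0 := by
      intro h0
      exact hne (TrivSqZeroExt.ext hfst h0)
    intro y
    obtain ⟨oa, ha⟩ := residue_surjective (R := 𝒪) y.fst
    obtain ⟨ob, hb⟩ := residue_surjective (R := 𝒪) (y.snd * (φ x).snd⁻¹)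
    refine ⟨algebraMap 𝒪 R oa + algebraMap 𝒪 R ob * x, ?_⟩
    rw [map_add, map_mul, AlgHom.commutes, AlgHom.commutes, S53.Rep.dualAlg_algebraMap_apply,
      S53.Rep.dualAlg_algebraMap_apply, ha, hb]
    apply TrivSqZeroExt.ext
    · simp [hfst]
    · simp [hfst, hsnd]
  intro φ φ' hφ hφ'
  apply AlgHom.ext
  intro x
  obtain ⟨o, ho⟩ := hres (residue R x)
  have hm : x - algebraMap 𝒪 R o ∈ maximalIdeal R := by
    rw [← residue_eq_zero_iff, map_sub, sub_eq_zero]
    exact ho.symm
  have h1 := hkill φ hφ _ hm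
  have h2 := hkill φ' hφ' _ hm
  rw [map_sub, AlgHom.commutes, sub_eq_zero] at h1 h2
  rw [h1, h2]

end alg

end Fermat.Agent.S56.C
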