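/-
S56 block (C), leaf C2b-cob: the non surjective hom gives the trivial class.
-/
import Fermat.Agent.S56.C.HomAlg

set_option autoImplicit false

open IsLocalRing Matrix

noncomputable section

namespace Fermat.Agent.S56.C

open Fermat.Agent.S53 (G M2 HasMatrix HasMatrixRes dualAlg Cond)

variable {𝒪 : Type} [CommRing 𝒪] [IsDomain 𝒪] [IsDiscreteValuationRing 𝒪]
  [IsAdicComplete (maximalIdeal 𝒪) 𝒪] [Finite (ResidueField 𝒪)]
  {ρbar : ResidualGaloisRep (ResidueField 𝒪)} {𝒟 : Cond 𝒪}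
  (D : GaloisRep.DeformationRingData 𝒪 ρbar 𝒟)

/-- a non surjective `𝒪`-algebra hom to `k[ε]` has values in `inl k`. -/
theorem HomCob_snd_eq_zero (𝒪 : Type) [CommRing 𝒪] [IsLocalRing 𝒪] (R : Type) [CommRing R]
    [Algebra 𝒪 R] :
    letI := dualAlg 𝒪
    ∀ φ : R →ₐ[𝒪] DualNumber (ResidueField 𝒪), ¬ Function.Surjective φ →
      ∀ x, (φ x).snd = 0 := by
  letI := dualAlg 𝒪
  intro φ hφ x
  by_contra hb
  apply hφ
  intro y
  obtain ⟨o, ho⟩ := IsLocalRing.residue_surjective (R := 𝒪) (φ x).fst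
  obtain ⟨o1, ho1⟩ := IsLocalRing.residue_surjective (R := 𝒪) y.fst
  obtain ⟨o2, ho2⟩ := IsLocalRing.residue_surjective (R := 𝒪) (y.snd / (φ x).snd)
  have hal : ∀ o : 𝒪, φ (algebraMap 𝒪 R o) = TrivSqZeroExt.inl (IsLocalRing.residue 𝒪 o) := by
    intro o
    rw [AlgHom.commutes]
    exact Fermat.Agent.S53.Rep.dualAlg_algebraMap_apply o
  refine ⟨algebraMap 𝒪 R o1 + algebraMap 𝒪 R o2 * (x - algebraMap 𝒪 R o), ?_⟩
  rw [map_add, map_mul, map_sub, hal, hal, hal, ho, ho1, ho2]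
  ext
  · simp
  · simp only [TrivSqZeroExt.snd_add, TrivSqZeroExt.snd_inl, TrivSqZeroExt.snd_mul,
      TrivSqZeroExt.fst_inl, TrivSqZeroExt.snd_sub, TrivSqZeroExt.fst_sub, sub_zero, zero_add,
      smul_eq_mul, MulOpposite.smul_eq_mul_unop, mul_zero, zero_mul, add_zero]
    exact div_mul_cancel₀ _ hb

/-- If `φ` is not surjective then every cocycle `c` describing the base change along `φ` is a coboundary.

PROOF SKETCH.  `φ` kills `𝔪_R` (see `eq_of_not_surjective`), so `φ = inl ∘ φ₀` with `φ₀ = fst ∘ φ : R → k`.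
`s` with `HasMatrix D.ρ s`; then `HasMatrix (base change) (fun σ => (s σ).map φ)`, with all entries in `inl k`.
`HasMatrix.exists_conj`: `P * (s σ).map φ = liftMat r c σ * P`, `P = inl P₀ + inr P₁` a unit, so `P₀` is invertible.
Compare `fst`: `P₀ s₀ σ = r σ P₀`; compare `snd`: `P₁ s₀ σ = r σ P₁ + c σ r σ P₀`; with `X := P₁ P₀⁻¹`:
`X r σ = r σ X + c σ r σ`, i.e. `c σ = X - r σ X (r σ)⁻¹`, so `c = ` coboundary of `-X`. -/
theorem isCob_of_not_surjective (r : G →* GL (Fin 2) (ResidueField 𝒪)) :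
    letI := dualAlg 𝒪
    ∀ (φ : D.R →ₐ[𝒪] DualNumber (ResidueField 𝒪))
      (hφ : IsLocalHom (φ : D.R →+* DualNumber (ResidueField 𝒪))) (c : G → M2 (ResidueField 𝒪)),
      ¬ Function.Surjective φ →
      HasMatrix (D.ρ.baseChangeAlong (φ : D.R →+* DualNumber (ResidueField 𝒪)) hφ) (liftMat r c) →
      IsCob r c := by
  letI := dualAlg 𝒪
  intro φ hφ c hns hM
  obtain ⟨s, hs⟩ := Fermat.Agent.S53.exists_hasMatrix D.ρ
  have hs' := hs.baseChangeAlong (φ : D.R →+* DualNumber (ResidueField 𝒪)) hφ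
  obtain ⟨P, hP, hconj⟩ := hs'.exists_conj hM
  -- decompose
  set P0 : M2 (ResidueField 𝒪) := P.map TrivSqZeroExt.fst with hP0
  set P1 : M2 (ResidueField 𝒪) := P.map TrivSqZeroExt.snd with hP1
  have hPdn : P = dn P0 P1 := eq_dn P
  obtain ⟨Q, hQ⟩ := hP.exists_right_inv
  have hPQ : P0 * Q.map TrivSqZeroExt.fst = 1 := by
    rw [hPdn, eq_dn Q, dn_mul, ← dn_one, dn_inj] at hQ
    exact hQ.1
  set Q0 : M2 (ResidueField 𝒪) := Q.map TrivSqZeroExt.fst with hQ0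
  have hQP : Q0 * P0 = 1 := mul_eq_one_comm.mp hPQ
  refine ⟨-(P1 * Q0), fun g => ?_⟩
  have hsg : (s g).map (φ : D.R →+* DualNumber (ResidueField 𝒪)) =
      dn (((s g).map (φ : D.R →+* DualNumber (ResidueField 𝒪))).map TrivSqZeroExt.fst) 0 := by
    conv_lhs => rw [eq_dn ((s g).map (φ : D.R →+* DualNumber (ResidueField 𝒪)))]
    rw [dn_inj]
    refine ⟨rfl, ?_⟩
    ext i j
    exact HomCob_snd_eq_zero 𝒪 D.R φ hns (s g i j)
  set S0 : M2 (ResidueField 𝒪) :=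
    ((s g).map (φ : D.R →+* DualNumber (ResidueField 𝒪))).map TrivSqZeroExt.fst with hS0
  have h1 := hconj g
  rw [hsg, hPdn, liftMat_eq_dn, dn_mul, dn_mul, dn_inj, Matrix.mul_zero, zero_add] at h1
  obtain ⟨h2, h3⟩ := h1
  -- `S0 = Q0 rm P0`
  have h4 : S0 = Q0 * (rm r g * P0) := by
    rw [← h2, ← Matrix.mul_assoc, hQP, Matrix.one_mul]
  have h5 : P1 * Q0 * rm r g = rm r g * (P1 * Q0) + c g * rm r g := by
    have h6 : P1 * S0 * Q0 = (rm r g * P1 + c g * rm r g * P0) * Q0 := by rw [h3]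
    rw [h4, Matrix.add_mul] at h6
    simp only [Matrix.mul_assoc] at h6 ⊢
    rw [hPQ, Matrix.mul_one] at h6
    exact h6
  apply mul_rm_cancel r g
  rw [Matrix.sub_mul, ad_mul_rm, Matrix.mul_neg, Matrix.neg_mul, h5]
  abel

end Fermat.Agent.S56.C
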