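/-
S56 block (C), leaf C2b-res: base changes of the universal representation are lifts of `ρbar`.
-/
import Fermat.Agent.S56.C.HomAlg

set_option autoImplicit false

open IsLocalRing Matrix

noncomputable section

namespace Fermat.Agent.S56.C

open Fermat.Agent.S53 (G M2 HasMatrix HasMatrixRes dualAlg Cond)

/-- General form: base change along a local `𝒪`-algebra hom preserves "is a lift of `ρbar`". -/
theorem HomRes_general {𝒪 R B : Type} [CommRing 𝒪] [IsLocalRing 𝒪] [CommRing R] [IsLocalRing R]
    [CommRing B] [IsLocalRing B] [Algebra 𝒪 R] [IsLocalHom (algebraMap 𝒪 R)] [Algebra 𝒪 B]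
    [IsLocalHom (algebraMap 𝒪 B)] {ρbar : ResidualGaloisRep (ResidueField 𝒪)}
    (ρ : GaloisRepAdic R)
    (h : ρ.residual.IsEquiv (ρbar.baseChangeAlong (ResidueField.map (algebraMap 𝒪 R))))
    (φ : R →ₐ[𝒪] B) (hφ : IsLocalHom (φ : R →+* B)) :
    (ρ.baseChangeAlong (φ : R →+* B) hφ).residual.IsEquiv
      (ρbar.baseChangeAlong (ResidueField.map (algebraMap 𝒪 B))) := by
  obtain ⟨s, hs⟩ := Fermat.Agent.S53.exists_hasMatrix ρ
  obtain ⟨r0, hr0⟩ := Fermat.Agent.S53.exists_hasMatrixRes ρbar
  have h1 := hs.residual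
  have h2 := hr0.baseChangeAlong (ResidueField.map (algebraMap 𝒪 R))
  obtain ⟨e⟩ := h
  have h3 := h2.of_isEquiv ⟨e.symm⟩
  obtain ⟨P, hP, hc⟩ := h1.exists_conj h3
  obtain ⟨b4, hb4⟩ := (hs.baseChangeAlong (φ : R →+* B) hφ).residual
  obtain ⟨b5, hb5⟩ := hr0.baseChangeAlong (ResidueField.map (algebraMap 𝒪 B))
  rw [Fermat.Agent.S53.residual_isEquiv_iff _ _ b4 b5]
  refine ⟨P.map (ResidueField.map (φ : R →+* B)), ?_, fun σ => ?_⟩
  · have hd : IsUnit P.det := (Matrix.isUnit_iff_isUnit_det P).mp hP
    have h5 : (P.map (ResidueField.map (φ : R →+* B))).det =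
        ResidueField.map (φ : R →+* B) P.det := by
      rw [RingHom.map_det]
      rfl
    rw [h5]
    exact hd.map _
  · rw [hb4, hb5]
    have h6 := congrArg (fun X : M2 (ResidueField R) => X.map (ResidueField.map (φ : R →+* B)))
      (hc σ)
    simp only [Matrix.map_mul] at h6
    have h7 : ((s σ).map (residue R)).map (ResidueField.map (φ : R →+* B)) =
        ((s σ).map (φ : R →+* B)).map (residue B) := by
      ext i j
      simp only [Matrix.map_apply]
      exact ResidueField.map_residue _ _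
    have h8 : ((r0 σ).map (ResidueField.map (algebraMap 𝒪 R))).map
        (ResidueField.map (φ : R →+* B)) = (r0 σ).map (ResidueField.map (algebraMap 𝒪 B)) := by
      ext i j
      simp only [Matrix.map_apply]
      obtain ⟨o, ho⟩ := residue_surjective (r0 σ i j)
      rw [← ho, ResidueField.map_residue, ResidueField.map_residue, ResidueField.map_residue]
      congr 1
      exact φ.commutes o
    rw [h7, h8] at h6
    exact h6

variable {𝒪 : Type} [CommRing 𝒪] [IsDomain 𝒪] [IsDiscreteValuationRing 𝒪]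
  [IsAdicComplete (maximalIdeal 𝒪) 𝒪] [Finite (ResidueField 𝒪)]
  {ρbar : ResidualGaloisRep (ResidueField 𝒪)} {𝒟 : Cond 𝒪}
  (D : GaloisRep.DeformationRingData 𝒪 ρbar 𝒟)

/-- The base change of the universal representation along `φ : R → k[ε]` is a lift of `ρbar`.

PROOF SKETCH (matrices).  `s` with `HasMatrix D.ρ s`.  `HasMatrix.baseChangeAlong`, `HasMatrix.residual`:
`HasMatrixRes (D.ρ.baseChangeAlong φ hφ).residual (fun σ => ((s σ).map φ).map residue)`.
From `D.residual_isEquiv`, `HasMatrix.residual`, and any `r0` with `HasMatrixRes ρbar r0`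
(`S53.exists_hasMatrixRes`): `Pbar * (s σ).map (residue R) = (r0 σ).map (ResidueField.map (algebraMap 𝒪 R)) * Pbar`
(`HasMatrixRes.exists_conj`).  Apply `ResidueField.map φ` to this identity
(`ResidueField.map φ ∘ residue R = residue ∘ φ`, `ResidueField.map φ ∘ ResidueField.map (algebraMap 𝒪 R) =
ResidueField.map (algebraMap 𝒪 k[ε])` because `φ` is an `𝒪`-algebra hom).  So both residual representations have
conjugate matrices; conclude with the residual analogue of `HasMatrix.conj` (change of basis by `Pbar`) and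
`HasMatrixRes.isEquiv`. -/
theorem residual_baseChange_isEquiv :
    letI := dualAlg 𝒪
    haveI := isLocalHom_dualAlg 𝒪
    ∀ (φ : D.R →ₐ[𝒪] DualNumber (ResidueField 𝒪))
      (hφ : IsLocalHom (φ : D.R →+* DualNumber (ResidueField 𝒪))),
      (D.ρ.baseChangeAlong (φ : D.R →+* DualNumber (ResidueField 𝒪)) hφ).residual.IsEquiv
        (ρbar.baseChangeAlong
          (IsLocalRing.ResidueField.map (algebraMap 𝒪 (DualNumber (ResidueField 𝒪))))) := by
  letI := dualAlg 𝒪
  haveI := isLocalHom_dualAlg 𝒪
  intro φ hφ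
  exact HomRes_general D.ρ D.residual_isEquiv φ hφ

end Fermat.Agent.S56.C
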