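/-
S56 block (C), C2b: homs `R → k[ε]` from a universal deformation ring are counted by cocycle classes.
-/
import Fermat.Agent.S56.C.HomRes
import Fermat.Agent.S56.C.HomCob

set_option autoImplicit false

open IsLocalRing Matrix

noncomputable section

namespace Fermat.Agent.S56.C

open Fermat.Agent.S53 (G M2 HasMatrix HasMatrixRes dualAlg Cond)

variable {𝒪 : Type} [CommRing 𝒪] [IsDomain 𝒪] [IsDiscreteValuationRing 𝒪]
  [IsAdicComplete (maximalIdeal 𝒪) 𝒪] [Finite (ResidueField 𝒪)]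
  {ρbar : ResidualGaloisRep (ResidueField 𝒪)} {𝒟 : Cond 𝒪}
  (D : GaloisRep.DeformationRingData 𝒪 ρbar 𝒟)

/-- (KEY) if `φ` is surjective and the base changes along `φ`, `φ'` are equivalent then `φ = φ'`:
apply `D.universal (DualNumber k)` to `ρA := D.ρ.baseChangeAlong φ` (of type `𝒟` by `QuotStable`, a lift of `ρbar` by
`residual_baseChange_isEquiv`); both `φ` and `φ'` satisfy the property, use uniqueness.
Instances: `isNoetherianRing_dualNumber`, `isAdicComplete_dualNumber`, `isLocalHom_dualAlg`,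
`(S53.Rep.isTest_dualNumber).residue_surjective`. -/
theorem eq_of_isEquiv (hq : QuotStable 𝒪 𝒟) :
    letI := dualAlg 𝒪
    ∀ (φ φ' : D.R →ₐ[𝒪] DualNumber (ResidueField 𝒪))
      (hφ : IsLocalHom (φ : D.R →+* DualNumber (ResidueField 𝒪)))
      (hφ' : IsLocalHom (φ' : D.R →+* DualNumber (ResidueField 𝒪))),
      Function.Surjective φ →
      (D.ρ.baseChangeAlong (φ' : D.R →+* DualNumber (ResidueField 𝒪)) hφ').IsEquiv
        (D.ρ.baseChangeAlong (φ : D.R →+* DualNumber (ResidueField 𝒪)) hφ) → φ = φ' := by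
  letI := dualAlg 𝒪
  intro φ φ' hφ hφ' hsurj he
  haveI := isLocalHom_dualAlg 𝒪
  haveI := isNoetherianRing_dualNumber (ResidueField 𝒪)
  haveI := isAdicComplete_dualNumber (ResidueField 𝒪)
  have hU := D.universal (DualNumber (ResidueField 𝒪))
    (Fermat.Agent.S53.Rep.isTest_dualNumber (𝒪 := 𝒪)).residue_surjective
    (D.ρ.baseChangeAlong (φ : D.R →+* DualNumber (ResidueField 𝒪)) hφ)
    (hq D.R D.ρ D.isOfType φ hφ hsurj)
    (residual_baseChange_isEquiv D φ hφ)
  exact hU.unique ⟨hφ, ⟨GaloisRepAdic.Equiv.refl _⟩⟩ ⟨hφ', he⟩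

/-- (C2) the number of homs `R → k[ε]` is at most `|k|^n`. -/
theorem hom_card_le (hq : QuotStable 𝒪 𝒟) (r : G →* GL (Fin 2) (ResidueField 𝒪))
    (hr : HasMatrixRes ρbar (rm r)) (n : ℕ) (hS : SelBound 𝒪 𝒟 r n) :
    letI := dualAlg 𝒪
    Finite (D.R →ₐ[𝒪] DualNumber (ResidueField 𝒪)) ∧
      Nat.card (D.R →ₐ[𝒪] DualNumber (ResidueField 𝒪)) ≤ Nat.card (ResidueField 𝒪) ^ n := by
  letI := dualAlg 𝒪
  haveI := isLocalHom_dualAlg 𝒪
  obtain ⟨T, hT, hrep⟩ := hS
  have hloc := isLocalHom_toDual 𝒪 D.R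
  -- the cocycle of `φ`
  have h1 : ∀ φ : D.R →ₐ[𝒪] DualNumber (ResidueField 𝒪), ∃ c, IsCoc r c ∧
      HasMatrix (D.ρ.baseChangeAlong (φ : D.R →+* DualNumber (ResidueField 𝒪)) (hloc φ))
        (liftMat r c) := fun φ =>
    exists_isCoc_hasMatrix 𝒪 ρbar r hr _ (residual_baseChange_isEquiv D φ (hloc φ))
  choose c hc hcm using h1
  have h2 : ∀ φ : D.R →ₐ[𝒪] DualNumber (ResidueField 𝒪), ∃ t ∈ T, IsCob r (c φ - t) := by
    intro φ
    refine hrep (c φ) (hc φ) ?_
    by_cases hs : Function.Surjective φ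
    · exact Or.inl ⟨_, hcm φ, hq D.R D.ρ D.isOfType φ (hloc φ) hs⟩
    · exact Or.inr (isCob_of_not_surjective D r φ (hloc φ) (c φ) hs (hcm φ))
  choose F hFT hF using h2
  have hinj : Function.Injective
      (fun φ : D.R →ₐ[𝒪] DualNumber (ResidueField 𝒪) => (⟨F φ, hFT φ⟩ : T)) := by
    intro φ φ' h
    have hFF : F φ = F φ' := congrArg Subtype.val h
    have hcob : IsCob r (c φ - c φ') := by
      refine isCob_trans r (hF φ) ?_
      rw [hFF]
      exact liftMat_sub_isCob_symm r (hF φ')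
    have he := isEquiv_of_isCob r (hcm φ) (hcm φ') hcob
    have he' := isEquiv_of_isCob r (hcm φ') (hcm φ) (liftMat_sub_isCob_symm r hcob)
    by_cases hs : Function.Surjective φ
    · exact eq_of_isEquiv D hq φ φ' (hloc φ) (hloc φ') hs he'
    · by_cases hs' : Function.Surjective φ'
      · exact (eq_of_isEquiv D hq φ' φ (hloc φ') (hloc φ) hs' he).symm
      · exact eq_of_not_surjective 𝒪 D.R D.residue_surjective φ φ' hs hs'
  refine ⟨Finite.of_injective _ hinj, ?_⟩
  refine le_trans (Nat.card_le_card_of_injective _ hinj) ?_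
  rw [Nat.card_eq_fintype_card, Fintype.card_coe]
  exact hT

end Fermat.Agent.S56.C
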