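/-
S56 block (C), leaf C4a: smooth / trace zero / unramified / unipotent conditions in terms of the cocycle.
-/
import Fermat.Agent.S56.C.LocalDefs
import Fermat.Agent.S56.C.LiftForm
import Fermat.Agent.GAL.Cyclo

set_option autoImplicit false

open IsLocalRing Matrix

noncomputable section

namespace Fermat.Agent.S56.C

open Fermat.Agent.S53 (G M2 HasMatrix HasMatrixRes dualAlg Cond)

section aux

variable {k : Type} [Field k]

theorem dualNumber_maximalIdeal_sq : maximalIdeal (DualNumber k) ^ 2 = ⊥ := by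
  rw [eq_bot_iff, sq, Ideal.mul_le]
  intro a ha b hb
  rw [Fermat.Agent.S53.Rep.dualNumber_mem_maximalIdeal] at ha hb
  rw [Ideal.mem_bot]
  ext
  · simp [ha]
  · simp [ha, hb]

theorem dn_det (A B : M2 k) :
    (dn A B).det = TrivSqZeroExt.inl A.det +
      TrivSqZeroExt.inr (A 0 0 * B 1 1 + B 0 0 * A 1 1 - A 0 1 * B 1 0 - B 0 1 * A 1 0) := by
  rw [Matrix.det_fin_two, Matrix.det_fin_two]
  ext
  · simp [dn_apply]
  · simp [dn_apply]
    ring

theorem dn_det_mul (A C : M2 k) :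
    (dn A (C * A)).det = TrivSqZeroExt.inl A.det + TrivSqZeroExt.inr (A.det * C.trace) := by
  rw [dn_det]
  congr 2
  rw [Matrix.det_fin_two, Matrix.trace_fin_two]
  simp only [Matrix.mul_apply, Fin.sum_univ_two]
  ring

theorem dn_trace (A B : M2 k) :
    (dn A B).trace = TrivSqZeroExt.inl A.trace + TrivSqZeroExt.inr B.trace := by
  rw [Matrix.trace_fin_two, Matrix.trace_fin_two, Matrix.trace_fin_two]
  ext
  · simp [dn_apply]
  · simp [dn_apply]

end aux

variable {k : Type} [Field k] (r : G →* GL (Fin 2) k) {c : G → M2 k}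
  {ρ : GaloisRepAdic (DualNumber k)}

theorem eq_zero_of_liftMat_eq_one {g : G} (h : liftMat r c g = 1) : c g = 0 := by
  rw [liftMat_eq_dn, ← dn_one, dn_inj] at h
  refine mul_rm_cancel r g ?_
  rw [h.2, Matrix.zero_mul]

/-- continuity at level `n = 2` (`𝔪² = 0` in `k[ε]`): `HasMatrix.isMatRep.cont 2` gives `liftMat r c σ = 1` for `σ`
fixing `L`; then `rm r σ = 1` (fst) and `c σ * rm r σ = 0` (snd). -/
theorem smooth_of_hasMatrix (h : HasMatrix ρ (liftMat r c)) : Smooth c := by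
  obtain ⟨L, hL, h1⟩ := h.isMatRep.cont 2
  refine ⟨L, hL, fun σ hσ => eq_zero_of_liftMat_eq_one r ?_⟩
  refine Matrix.ext fun i j => ?_
  have := h1 σ hσ i j
  rw [dualNumber_maximalIdeal_sq, Ideal.mem_bot, Matrix.sub_apply, sub_eq_zero] at this
  exact this

/-- `det (liftMat r c g) = inl (det r g) + inr (det (r g) * tr (c g))`; `DetIsCyclotomic` with `n = 1`:
`det - a ∈ span {p} = ⊥` since `p = 0` in `k[ε]` (`hp`).  So `snd (det) = 0`. -/
theorem traceZero_of_det {p : ℕ} (hpp : p.Prime) (hp : (p : k) = 0)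
    (h : HasMatrix ρ (liftMat r c)) (hd : ρ.DetIsCyclotomic p) : TraceZero c := by
  haveI : Fact p.Prime := ⟨hpp⟩
  intro σ
  obtain ⟨b, hb⟩ := h
  have h1 := hd.2 1 σ _ (fun μ hμ => Fermat.Agent.GAL.Cyclo.eps_spec p σ hμ)
  have hp' : ((p ^ 1 : ℕ) : DualNumber k) = 0 := by
    rw [pow_one]
    ext
    · simpa using hp
    · simp
  rw [hp', Ideal.span_singleton_eq_bot.2 rfl, Ideal.mem_bot, sub_eq_zero,
    ← LinearMap.det_toMatrix b, hb σ, liftMat_eq_dn, dn_det_mul] at h1
  have h2 := congrArg TrivSqZeroExt.snd h1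
  simp only [TrivSqZeroExt.snd_add, TrivSqZeroExt.snd_inl, TrivSqZeroExt.snd_inr, zero_add,
    TrivSqZeroExt.snd_natCast] at h2
  have h3 : (rm r σ).det ≠ 0 := by
    have : IsUnit (rm r σ).det := (Matrix.isUnit_iff_isUnit_det _).mp (r σ).isUnit
    exact this.ne_zero
  exact (mul_eq_zero.mp h2).resolve_left h3

/-- `ρ.ρ σ = 1` ⇒ `liftMat r c σ = 1` ⇒ `rm r σ = 1`, `c σ = 0`. -/
theorem unramAt_of_hasMatrix {q : ℕ} (h : HasMatrix ρ (liftMat r c)) (hu : ρ.IsUnramifiedAt q) :
    UnramAt c q := by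
  obtain ⟨b, hb⟩ := h
  intro P hP σ hσ
  refine eq_zero_of_liftMat_eq_one r ?_
  rw [← hb σ, hu P hP σ hσ]
  exact LinearMap.toMatrix_one b

/-- `charpoly = (X-1)²` ⇒ `trace (liftMat r c σ) = 2` ⇒ `snd`: `tr (c σ * r σ) = 0`. -/
theorem unipAt_of_hasMatrix {q : ℕ} (h : HasMatrix ρ (liftMat r c))
    (hu : ρ.IsUnipotentOnInertiaAt q) : UnipAt r c q := by
  obtain ⟨b, hb⟩ := h
  intro P hP σ hσ
  have h1 := hu P hP σ hσ
  rw [← LinearMap.charpoly_toMatrix _ b, hb σ, Matrix.charpoly_fin_two] at h1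
  have h2 := congrArg (fun f => Polynomial.coeff f 1) h1
  have h3 : Polynomial.coeff ((Polynomial.X - 1 : Polynomial (DualNumber k)) ^ 2) 1 = -2 := by
    have : (Polynomial.X - 1 : Polynomial (DualNumber k)) ^ 2
        = Polynomial.X ^ 2 - Polynomial.C 2 * Polynomial.X + Polynomial.C 1 := by
      simp only [map_ofNat, map_one]
      ring
    rw [this]
    simp only [Polynomial.coeff_add, Polynomial.coeff_sub, Polynomial.coeff_X_pow,
      Polynomial.coeff_C_mul, Polynomial.coeff_X_one, Polynomial.coeff_C]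
    simp
  simp only [h3] at h2
  simp only [Polynomial.coeff_add, Polynomial.coeff_sub, Polynomial.coeff_X_pow,
    Polynomial.coeff_C_mul, Polynomial.coeff_X_one, Polynomial.coeff_C] at h2
  simp only [OfNat.one_ne_ofNat, if_false, one_ne_zero, mul_one, zero_sub, add_zero, neg_inj] at h2
  rw [liftMat_eq_dn, dn_trace] at h2
  have h4 := congrArg TrivSqZeroExt.snd h2
  have h5 : TrivSqZeroExt.snd (2 : DualNumber k) = 0 := by
    have : (2 : DualNumber k) = ((2 : ℕ) : DualNumber k) := by norm_cast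
    rw [this, TrivSqZeroExt.snd_natCast]
  rw [h5] at h4
  simpa using h4

end Fermat.Agent.S56.C
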