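/-
S56 block (C), leaf C4b: the strict ordinary condition in terms of the cocycle.
-/
import Fermat.Agent.S56.C.LocalDefs
import Fermat.Agent.S56.C.LiftForm

set_option autoImplicit false

open IsLocalRing Matrix

noncomputable section

namespace Fermat.Agent.S56.C

open Fermat.Agent.S53 (G M2 HasMatrix HasMatrixRes dualAlg Cond)

/-- every automorphism acts on `μ_p` by a power map. -/
theorem sO_exists_pow {p : ℕ} (hpp : p.Prime) (σ : G) :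
    ∃ a : ℕ, ∀ μ : AlgebraicClosure ℚ, μ ^ p = 1 → σ μ = μ ^ a := by
  have : NeZero p := ⟨hpp.ne_zero⟩
  have : NeZero ((p : ℕ) : AlgebraicClosure ℚ) := ⟨by exact_mod_cast hpp.ne_zero⟩
  obtain ⟨ζ, hζ⟩ := HasEnoughRootsOfUnity.exists_primitiveRoot (AlgebraicClosure ℚ) p
  have h1 : (σ ζ) ^ p = 1 := by rw [← map_pow, hζ.pow_eq_one, map_one]
  obtain ⟨a, -, ha⟩ := hζ.eq_pow_of_pow_eq_one h1
  refine ⟨a, fun μ hμ => ?_⟩
  obtain ⟨j, -, hj⟩ := hζ.eq_pow_of_pow_eq_one hμ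
  rw [← hj, map_pow, ← ha, ← pow_mul, ← pow_mul, mul_comm]

/-- the linear algebra core of `sOAt_of_hasMatrix`. -/
theorem sO_core {k : Type} [Field k] (h2 : (2 : k) ≠ 0) (U V C T₀ T₁ : M2 k)
    (hVU : V * U = 1) (hC : C * U * T₀ = U * T₁) (h10 : T₀ 1 0 = 0) (h10' : T₁ 1 0 = 0)
    (a : k) (hx0 : T₀ 0 0 = a * T₀ 1 1) (hx1 : T₁ 0 0 = a * T₁ 1 1) (hx : T₀ 0 0 ≠ 0)
    (htr : C.trace = 0) : ∃ s : k, C * U = U * !![0, s; 0, 0] := by
  have hUV : U * V = 1 := mul_eq_one_comm.1 hVU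
  set D : M2 k := V * C * U with hD
  have hDT : D * T₀ = T₁ := by
    rw [hD, Matrix.mul_assoc V C U, Matrix.mul_assoc V, hC, ← Matrix.mul_assoc, hVU, Matrix.one_mul]
  have hCU : C * U = U * D := by
    rw [hD, ← Matrix.mul_assoc, ← Matrix.mul_assoc, hUV, Matrix.one_mul]
  have htrD : D.trace = 0 := by
    rw [hD, Matrix.mul_assoc, Matrix.trace_mul_comm, Matrix.mul_assoc, hUV, Matrix.mul_one, htr]
  rw [Matrix.trace_fin_two] at htrD
  have e00 := congrFun (congrFun hDT 0) 0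
  have e10 := congrFun (congrFun hDT 1) 0
  have e11 := congrFun (congrFun hDT 1) 1
  simp only [Matrix.mul_apply, Fin.sum_univ_two, h10, mul_zero, add_zero] at e00 e10 e11
  have d10 : D 1 0 = 0 := by
    rw [h10'] at e10
    exact (mul_eq_zero.1 e10).resolve_right hx
  rw [d10, zero_mul, zero_add] at e11
  have hdd : D 0 0 = D 1 1 := by
    have : D 0 0 * T₀ 0 0 = D 1 1 * T₀ 0 0 := by
      rw [e00, hx1, ← e11, hx0]; ring
    exact mul_right_cancel₀ hx this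
  have d00 : D 0 0 = 0 := by
    have : (2 : k) * D 0 0 = 0 := by
      rw [two_mul]; nth_rewrite 2 [hdd]; exact htrD
    exact (mul_eq_zero.1 this).resolve_left h2
  have d11 : D 1 1 = 0 := by rw [← hdd, d00]
  refine ⟨D 0 1, ?_⟩
  rw [hCU]
  congr 1
  ext i j
  fin_cases i <;> fin_cases j <;> simp [d00, d10, d11]

/-- a matrix `U * N` with `N` having zero second row has image in the line of the first column of `U`. -/
theorem sO_image {k : Type} [Field k] (U N : M2 k) (h0 : N 1 0 = 0) (h1 : N 1 1 = 0)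
    (w : Fin 2 → k) : ∃ y : k, (U * N) *ᵥ w = y • (fun i => U i 0) := by
  refine ⟨N 0 0 * w 0 + N 0 1 * w 1, ?_⟩
  ext i
  simp only [Matrix.mulVec, dotProduct, Matrix.mul_apply, Fin.sum_univ_two, h0, h1, Pi.smul_apply,
    smul_eq_mul]
  ring

theorem sO_trace_ad {k : Type} [Field k] (g : GL (Fin 2) k) (X : M2 k) : (ad g X).trace = X.trace := by
  rw [ad, Matrix.trace_mul_comm, ← Matrix.mul_assoc, ← Units.val_mul, inv_mul_cancel, Units.val_one,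
    Matrix.one_mul]

variable {k : Type} [Field k] (r : G →* GL (Fin 2) k) {c : G → M2 k}
  {ρ : GaloisRepAdic (DualNumber k)}

/-- (C4-SO) the strict ordinary condition in terms of `c`.

PROOF SKETCH.  Fix `P`, `L = A ∙ b 0` (`A = k[ε]`).  Let `e` be the basis with `toMatrix e e (ρ σ) = liftMat r c σ` and `U` the
matrix of `b` in `e` (`U = e.toMatrix b`, a unit), so `T σ := U⁻¹ * liftMat r c σ * U = toMatrix b b (ρ σ)`.
For `σ ∈ D_P`: `T σ 1 0 = 0` (`L` stable), `T σ 0 0 = x`, `T σ 1 1 = z` and `x = a z` where `σ = (·)^a` on `μ_p` (`n = 1`, `p = 0`).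
Write `U = (1 + ε X') * inl U₀` (`U₀ = fst U` invertible, `X' = snd U * U₀⁻¹`), `v := U₀ *ᵥ e₀`.
By `onePlus_mul_liftMat`: `(1+εX')⁻¹ liftMat r c σ (1+εX') = liftMat r c' σ`, `c' σ = c σ - (X' - ad (r σ) X')`, so take `X := X'`.
Then `inl U₀⁻¹ * liftMat r c' σ * inl U₀` is upper triangular with diagonal `(x, z)`; with `r' = U₀⁻¹ r U₀ = (x₀ β₀; 0 z₀)` and
`c'' = U₀⁻¹ c' U₀`: `c'' r'` is upper triangular, so `c''` is, `x = x₀ (1 + ε c''₀₀)`, `z = z₀ (1 + ε c''₁₁)`.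
`x = a z` gives `x₀ = a z₀` and `c''₀₀ = c''₁₁`; `tr c'' = tr c' = 0` (`htr`; coboundaries have trace `0`) and `2 ≠ 0` give
`c''₀₀ = c''₁₁ = 0`.  So `c'' = c''₀₁ E₀₁`, i.e. `c' σ v = 0`, `c' σ w ∈ k v`.
Inertia: `ρ σ w - w ∈ L` gives (fst) `r σ w - w ∈ k v`. -/
theorem sOAt_of_hasMatrix {p : ℕ} (hpp : p.Prime) (hp2 : p ≠ 2) (hp : (p : k) = 0)
    (h : HasMatrix ρ (liftMat r c)) (htr : TraceZero c) (hs : ρ.IsStrictOrdinaryAt p) :
    SOAt r c p := by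
  obtain ⟨e, he⟩ := h
  intro P hP
  obtain ⟨L, ⟨b, hL⟩, hD, hI, hxz⟩ := hs.2 P hP
  have h2 : (2 : k) ≠ 0 := by
    intro h2
    have hcp : CharP k p := (CharP.charP_iff_prime_eq_zero hpp).2 hp
    have : (p : ℕ) ∣ 2 := (CharP.cast_eq_zero_iff k p 2).1 (by exact_mod_cast h2)
    exact hp2 ((Nat.prime_dvd_prime_iff_eq hpp Nat.prime_two).1 this)
  have hpA : ((p : ℕ) : DualNumber k) = 0 := by
    have : ((p : ℕ) : DualNumber k) = TrivSqZeroExt.inl ((p : ℕ) : k) := by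
      simp
    rw [this, hp, TrivSqZeroExt.inl_zero]
  have hb0 : b 0 ∈ L := by rw [hL]; exact Submodule.mem_span_singleton_self _
  -- the base change matrices
  obtain ⟨U, hU⟩ : ∃ U : M2 (DualNumber k), U = e.toMatrix b := ⟨_, rfl⟩
  obtain ⟨U', hU'⟩ : ∃ U' : M2 (DualNumber k), U' = b.toMatrix e := ⟨_, rfl⟩
  have hUU' : U * U' = 1 := by rw [hU, hU']; exact e.toMatrix_mul_toMatrix_flip b
  obtain ⟨T, hT⟩ : ∃ T : G → M2 (DualNumber k), T = fun σ => LinearMap.toMatrix b b (ρ.ρ σ) :=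
    ⟨_, rfl⟩
  have hTa : ∀ σ i j, T σ i j = b.repr (ρ.ρ σ (b j)) i := by
    intro σ i j
    rw [hT]
    exact LinearMap.toMatrix_apply _ _ _ _ _
  have hrel : ∀ σ, liftMat r c σ * U = U * T σ := by
    intro σ
    rw [← he σ, hU, hT]
    rw [linearMap_toMatrix_mul_basis_toMatrix, basis_toMatrix_mul_linearMap_toMatrix]
  -- components
  obtain ⟨U₀, hU₀⟩ : ∃ U₀ : M2 k, U₀ = U.map TrivSqZeroExt.fst := ⟨_, rfl⟩
  obtain ⟨U₁, hU₁⟩ : ∃ U₁ : M2 k, U₁ = U.map TrivSqZeroExt.snd := ⟨_, rfl⟩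
  obtain ⟨V₀, hV₀⟩ : ∃ V₀ : M2 k, V₀ = U'.map TrivSqZeroExt.fst := ⟨_, rfl⟩
  have hUdn : U = dn U₀ U₁ := by rw [hU₀, hU₁]; exact eq_dn U
  have hUV : U₀ * V₀ = 1 := by
    have h1 := hUU'
    rw [hUdn, eq_dn U', dn_mul, ← dn_one, dn_inj] at h1
    rw [hV₀]; exact h1.1
  have hVU : V₀ * U₀ = 1 := mul_eq_one_comm.1 hUV
  obtain ⟨T₀, hT₀⟩ : ∃ T₀ : G → M2 k, T₀ = fun σ => (T σ).map TrivSqZeroExt.fst := ⟨_, rfl⟩
  obtain ⟨T₁, hT₁⟩ : ∃ T₁ : G → M2 k, T₁ = fun σ => (T σ).map TrivSqZeroExt.snd := ⟨_, rfl⟩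
  have hT₀a : ∀ σ i j, T₀ σ i j = (T σ i j).fst := by intro σ i j; rw [hT₀]; rfl
  have hT₁a : ∀ σ i j, T₁ σ i j = (T σ i j).snd := by intro σ i j; rw [hT₁]; rfl
  have hTdn : ∀ σ, T σ = dn (T₀ σ) (T₁ σ) := by intro σ; rw [hT₀, hT₁]; exact eq_dn (T σ)
  have hrel' : ∀ σ, rm r σ * U₀ = U₀ * T₀ σ ∧
      rm r σ * U₁ + c σ * rm r σ * U₀ = U₀ * T₁ σ + U₁ * T₀ σ := by
    intro σ
    have h1 := hrel σ
    rw [liftMat_eq_dn, hUdn, hTdn, dn_mul, dn_mul, dn_inj] at h1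
    exact h1
  obtain ⟨X, hX⟩ : ∃ X : M2 k, X = U₁ * V₀ := ⟨_, rfl⟩
  have hXU : X * U₀ = U₁ := by rw [hX, Matrix.mul_assoc, hVU, Matrix.mul_one]
  have hC : ∀ σ, (c σ + (ad (r σ) X - X)) * U₀ * T₀ σ = U₀ * T₁ σ := by
    intro σ
    obtain ⟨h0, h1⟩ := hrel' σ
    rw [Matrix.mul_assoc, ← h0, ← Matrix.mul_assoc, Matrix.add_mul, Matrix.sub_mul, ad_mul_rm,
      Matrix.add_mul, Matrix.sub_mul, Matrix.mul_assoc (rm r σ) X, hXU, Matrix.mul_assoc X, h0,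
      ← Matrix.mul_assoc X, hXU]
    rw [eq_sub_of_add_eq h1]
    abel
  have htrC : ∀ σ, (c σ + (ad (r σ) X - X)).trace = 0 := by
    intro σ
    rw [Matrix.trace_add, Matrix.trace_sub, sO_trace_ad, sub_self, add_zero]
    exact htr σ
  have hw : ∀ w : Fin 2 → k, U₀ *ᵥ (V₀ *ᵥ w) = w := by
    intro w
    rw [Matrix.mulVec_mulVec, hUV, Matrix.one_mulVec]
  have hv0 : (fun i => U₀ i 0) ≠ 0 := by
    intro hv
    have h00 := congrFun (congrFun hVU 0) 0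
    have e0 : U₀ 0 0 = 0 := congrFun hv 0
    have e1 : U₀ 1 0 = 0 := congrFun hv 1
    simp [Matrix.mul_apply, Fin.sum_univ_two, e0, e1] at h00
  -- shape of `T σ` on the decomposition group
  have hshape : ∀ σ ∈ P.decompositionSubgroup ℚ, T₀ σ 1 0 = 0 ∧ T₁ σ 1 0 = 0 ∧
      ∀ a : ℕ, (∀ μ : AlgebraicClosure ℚ, μ ^ p = 1 → σ μ = μ ^ a) →
        T₀ σ 0 0 = (a : k) * T₀ σ 1 1 ∧ T₁ σ 0 0 = (a : k) * T₁ σ 1 1 := by
    intro σ hσ
    obtain ⟨x, z, hx, hz, hcyc⟩ := hxz σ hσ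
    have hxa : ∀ a : ℕ, (∀ μ : AlgebraicClosure ℚ, μ ^ p = 1 → σ μ = μ ^ a) →
        x = (a : DualNumber k) * z := by
      intro a ha
      have h1 := hcyc 1 a (fun μ hμ => ha μ (by rwa [pow_one] at hμ))
      rw [pow_one, hpA, Ideal.span_singleton_eq_bot.2 rfl, Ideal.mem_bot, sub_eq_zero] at h1
      exact h1
    have t00 : T σ 0 0 = x := by
      rw [hTa, hx _ hb0]; simp
    have t10 : T σ 1 0 = 0 := by
      rw [hTa, hx _ hb0]; simp
    have t11 : T σ 1 1 = z := by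
      have h1 := hz (b 1)
      rw [hL, Submodule.mem_span_singleton] at h1
      obtain ⟨t, ht⟩ := h1
      rw [hTa, eq_add_of_sub_eq ht.symm]; simp
    refine ⟨?_, ?_, fun a ha => ⟨?_, ?_⟩⟩
    · rw [hT₀a, t10]; rfl
    · rw [hT₁a, t10]; rfl
    · rw [hT₀a, hT₀a, t00, t11, hxa a ha]; simp
    · rw [hT₁a, hT₁a, t00, t11, hxa a ha]; simp
  have hline : ∀ σ, T₀ σ 1 0 = 0 → rm r σ *ᵥ (fun i => U₀ i 0) = T₀ σ 0 0 • (fun i => U₀ i 0) := by
    intro σ h10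
    ext i
    have h1 := congrFun (congrFun (hrel' σ).1 i) 0
    simp only [Matrix.mul_apply, Fin.sum_univ_two, h10, mul_zero, add_zero] at h1
    simp only [Matrix.mulVec, dotProduct, Fin.sum_univ_two, Pi.smul_apply, smul_eq_mul]
    rw [h1, mul_comm]
  refine ⟨fun i => U₀ i 0, X, hv0, ?_, ?_, ?_⟩
  · intro σ hσ
    obtain ⟨h10, -, hcy⟩ := hshape σ hσ
    refine ⟨T₀ σ 0 0, T₀ σ 1 1, hline σ h10, fun w => ?_, fun a ha => (hcy a ha).1⟩
    obtain ⟨y, hy⟩ := sO_image U₀ (T₀ σ - T₀ σ 1 1 • 1) (by simp [h10]) (by simp) (V₀ *ᵥ w)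
    refine ⟨y, ?_⟩
    rw [← hy, Matrix.mul_sub, Matrix.mul_smul, Matrix.mul_one, ← (hrel' σ).1, Matrix.sub_mulVec,
      ← Matrix.mulVec_mulVec, hw, Matrix.smul_mulVec, hw]
  · intro σ hσ w
    have hj : ∀ j, T σ 1 j = (1 : M2 (DualNumber k)) 1 j := by
      intro j
      have h1 := hI σ hσ (b j)
      rw [hL, Submodule.mem_span_singleton] at h1
      obtain ⟨t, ht⟩ := h1
      rw [hTa, eq_add_of_sub_eq ht.symm]
      simp [Matrix.one_apply, Finsupp.single_apply, eq_comm]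
    obtain ⟨y, hy⟩ := sO_image U₀ (T₀ σ - 1) (by rw [Matrix.sub_apply, hT₀a, hj]; simp)
      (by rw [Matrix.sub_apply, hT₀a, hj]; simp) (V₀ *ᵥ w)
    refine ⟨y, ?_⟩
    rw [← hy, Matrix.mul_sub, Matrix.mul_one, ← (hrel' σ).1, Matrix.sub_mulVec,
      ← Matrix.mulVec_mulVec, hw]
  · intro σ hσ
    obtain ⟨h10, h10', hcy⟩ := hshape σ hσ
    obtain ⟨a, ha⟩ := sO_exists_pow hpp σ
    obtain ⟨hx0, hx1⟩ := hcy a ha
    have hx : T₀ σ 0 0 ≠ 0 := by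
      intro hx
      have h1 := hline σ h10
      rw [hx, zero_smul] at h1
      apply hv0
      have h3 := congrArg (fun u => (((r σ)⁻¹ : GL (Fin 2) k) : M2 k) *ᵥ u) h1
      simp only [Matrix.mulVec_mulVec, inv_mul_rm, Matrix.one_mulVec, Matrix.mulVec_zero] at h3
      exact h3
    obtain ⟨s, hs'⟩ := sO_core h2 U₀ V₀ _ (T₀ σ) (T₁ σ) hVU (hC σ) h10 h10' a hx0 hx1 hx (htrC σ)
    constructor
    · ext i
      have h1 := congrFun (congrFun hs' i) 0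
      simp only [Matrix.mul_apply, Fin.sum_univ_two] at h1
      simp only [Matrix.mulVec, dotProduct, Fin.sum_univ_two, Pi.zero_apply]
      rw [h1]; simp
    · intro w
      obtain ⟨y, hy⟩ := sO_image U₀ !![0, s; 0, 0] (by simp) (by simp) (V₀ *ᵥ w)
      refine ⟨y, ?_⟩
      rw [← hy, ← hs', ← Matrix.mulVec_mulVec, hw]

end Fermat.Agent.S56.C
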