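/-
S56 block (C), leaf C3a: det / unramified / unipotent conditions are stable under base change.
-/
import Fermat.Agent.S56.C.Defs

set_option autoImplicit false

open IsLocalRing Matrix

noncomputable section

namespace Fermat.Agent.S56.C

open Fermat.Agent.S53 (G M2 HasMatrix HasMatrixRes dualAlg Cond)

variable {A B : Type} [CommRing A] [IsLocalRing A] [CommRing B] [IsLocalRing B]
  (φ : A →+* B) (hφ : IsLocalHom φ) {ρ : GaloisRepAdic A}

/-- `(ρ.baseChangeAlong φ hφ).ρ σ = (ρ.ρ σ).baseChange B` (for the algebra structure `φ.toAlgebra`): `rfl`.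
`LinearMap.det_baseChange`; `φ` maps `span {p^n}` into `span {p^n}`; `φ` local maps `𝔪_A` to `𝔪_B`. -/
theorem detIsCyclotomic_baseChange {p : ℕ} (h : ρ.DetIsCyclotomic p) :
    (ρ.baseChangeAlong φ hφ).DetIsCyclotomic p := by
  letI : Algebra A B := φ.toAlgebra
  refine ⟨?_, fun n σ a ha => ?_⟩
  · have h1 : φ (p : A) ∈ IsLocalRing.maximalIdeal B := by
      haveI := hφ
      exact map_nonunit φ _ h.1
    rwa [map_natCast] at h1
  · have h1 := h.2 n σ a ha
    have h2 : LinearMap.det ((ρ.baseChangeAlong φ hφ).ρ σ) = φ (LinearMap.det (ρ.ρ σ)) := by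
      change LinearMap.det ((ρ.ρ σ).baseChange B) = algebraMap A B (LinearMap.det (ρ.ρ σ))
      exact LinearMap.det_baseChange _
    rw [h2]
    obtain ⟨c, hc⟩ := Ideal.mem_span_singleton'.mp h1
    rw [Ideal.mem_span_singleton']
    refine ⟨φ c, ?_⟩
    have h3 := congrArg φ hc
    rw [map_mul, map_sub, map_natCast, map_natCast] at h3
    exact h3

/-- `(ρ.ρ σ).baseChange B = 1` if `ρ.ρ σ = 1` (`LinearMap.baseChange_one` / `Module.End.one_eq_id`). -/
theorem isUnramifiedAt_baseChange {q : ℕ} (h : ρ.IsUnramifiedAt q) :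
    (ρ.baseChangeAlong φ hφ).IsUnramifiedAt q := by
  letI : Algebra A B := φ.toAlgebra
  intro P hP σ hσ
  change (ρ.ρ σ).baseChange B = 1
  rw [h P hP σ hσ, LinearMap.baseChange_one]

/-- `LinearMap.charpoly_baseChange`. -/
theorem isUnipotentOnInertiaAt_baseChange {q : ℕ} (h : ρ.IsUnipotentOnInertiaAt q) :
    (ρ.baseChangeAlong φ hφ).IsUnipotentOnInertiaAt q := by
  letI : Algebra A B := φ.toAlgebra
  intro P hP σ hσ
  change LinearMap.charpoly ((ρ.ρ σ).baseChange B) = _
  rw [LinearMap.charpoly_baseChange, h P hP σ hσ]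
  simp

end Fermat.Agent.S56.C
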