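/-
S56 block (C), leaf C3c: flatness is stable under surjective base change.
-/
import Fermat.Agent.S56.C.Defs

set_option autoImplicit false

open IsLocalRing Matrix

noncomputable section

namespace Fermat.Agent.S56.C

open Fermat.Agent.S53 (G M2 HasMatrix HasMatrixRes dualAlg Cond)

open scoped TensorProduct

/-- Membership in `I • ⊤` read off on coordinates. -/
theorem mem_smul_top_iff_repr {R M ι : Type*} [CommRing R] [AddCommGroup M] [Module R M]
    [Fintype ι] (b : Module.Basis ι R M) (I : Ideal R) (x : M) :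
    x ∈ I • (⊤ : Submodule R M) ↔ ∀ i, b.repr x i ∈ I := by
  constructor
  · intro hx
    refine Submodule.smul_induction_on (p := fun x => ∀ i, b.repr x i ∈ I) hx ?_ ?_
    · intro a ha w _ i
      rw [map_smul, Finsupp.smul_apply, smul_eq_mul]
      exact I.mul_mem_right _ ha
    · intro x y hx hy i
      rw [map_add, Finsupp.add_apply]
      exact I.add_mem (hx i) (hy i)
  · intro h
    rw [← b.sum_repr x]
    exact Submodule.sum_mem _ fun i _ => Submodule.smul_mem_smul (h i) Submodule.mem_top

variable {A B : Type} [CommRing A] [IsLocalRing A] [CommRing B] [IsLocalRing B]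
  (φ : A →+* B) (hφ : IsLocalHom φ) {ρ : GaloisRepAdic A}

/-- Flatness passes to base change along a SURJECTIVE local hom.

PROOF SKETCH.  `Finite (ResidueField B)`: `ResidueField.map φ` is surjective.  For `I : Ideal B` with `B ⧸ I` finite put
`J := I.comap φ`; `A ⧸ J ≃ B ⧸ I` is finite; take `(H, e)` for `J`.  The additive map
`ρ.V ⧸ J • ⊤ → (B ⊗[A] ρ.V) ⧸ I • ⊤`, `[v] ↦ [1 ⊗ v]` is a bijection (surjective: `b ⊗ v = 1 ⊗ a v` with `φ a = b`;
injective: `B ⊗[A] V ≃ V ⧸ (ker φ) • ⊤` and `I • ⊤` corresponds to `J • ⊤`; or use a basis of `V`: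
both sides are `(A ⧸ J)² = (B ⧸ I)²`), commuting with `levelAction`.  Compose `e` with it. -/
theorem isFlatAt_baseChange_of_surjective (hs : Function.Surjective φ) {p : ℕ} (h : ρ.IsFlatAt p) :
    (ρ.baseChangeAlong φ hφ).IsFlatAt p := by
  obtain ⟨hfin, hI⟩ := h
  refine ⟨?_, ?_⟩
  · have := hφ
    refine Finite.of_surjective (IsLocalRing.ResidueField.map φ) ?_
    intro x
    obtain ⟨b, rfl⟩ := IsLocalRing.residue_surjective x
    obtain ⟨a, rfl⟩ := hs b
    exact ⟨IsLocalRing.residue A a, IsLocalRing.ResidueField.map_residue φ a⟩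
  · intro I hfI
    let _ : Algebra A B := φ.toAlgebra
    have hJfin : Finite (A ⧸ I.comap φ) :=
      Finite.of_injective (Ideal.quotientMap I φ le_rfl) (Ideal.quotientMap_injective)
    obtain ⟨H, iC, iH, h1, h2, h3, e, he1, he2⟩ := hI (I.comap φ) hJfin
    refine ⟨H, iC, iH, h1, h2, h3, ?_⟩
    -- the semilinear map `v ↦ [1 ⊗ v]`
    let W : Submodule B (B ⊗[A] ρ.V) := I • ⊤
    let f0 : ρ.V →ₛₗ[φ] ((B ⊗[A] ρ.V) ⧸ W) :=
      { toFun := fun v => Submodule.Quotient.mk ((1 : B) ⊗ₜ[A] v)
        map_add' := fun v w => by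
          rw [TensorProduct.tmul_add, Submodule.Quotient.mk_add]
        map_smul' := fun a v => by
          rw [TensorProduct.tmul_smul, ← Submodule.Quotient.mk_smul]
          congr 1 }
    let b := Module.Free.chooseBasis A ρ.V
    have hker : ∀ v : ρ.V, f0 v = 0 ↔ v ∈ (I.comap φ) • (⊤ : Submodule A ρ.V) := by
      intro v
      change Submodule.Quotient.mk ((1 : B) ⊗ₜ[A] v) = 0 ↔ _
      rw [Submodule.Quotient.mk_eq_zero, mem_smul_top_iff_repr (b.baseChange B),
        mem_smul_top_iff_repr b]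
      refine forall_congr' fun i => ?_
      rw [Module.Basis.baseChange_repr_tmul, Algebra.smul_def, mul_one, Ideal.mem_comap]
      rfl
    let f1 : (ρ.V ⧸ ((I.comap φ) • (⊤ : Submodule A ρ.V))) →ₛₗ[φ] ((B ⊗[A] ρ.V) ⧸ W) :=
      Submodule.liftQ _ f0 (fun v hv => (hker v).mpr hv)
    have hf1 : ∀ v : ρ.V, f1 (Submodule.Quotient.mk v) = Submodule.Quotient.mk ((1 : B) ⊗ₜ[A] v) :=
      fun v => rfl
    have hinj : Function.Injective f1 := by
      rw [injective_iff_map_eq_zero]
      intro x hx
      obtain ⟨v, rfl⟩ := Submodule.Quotient.mk_surjective _ x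
      rw [Submodule.Quotient.mk_eq_zero]
      exact (hker v).mp hx
    have hsurj : Function.Surjective f1 := by
      intro y
      obtain ⟨w, rfl⟩ := Submodule.Quotient.mk_surjective _ y
      induction w using TensorProduct.induction_on with
      | zero => exact ⟨0, by rw [map_zero, Submodule.Quotient.mk_zero]⟩
      | tmul c v =>
        obtain ⟨a, rfl⟩ := hs c
        refine ⟨Submodule.Quotient.mk (a • v), ?_⟩
        rw [hf1]
        congr 1
        rw [TensorProduct.tmul_smul, TensorProduct.smul_tmul', Algebra.smul_def, mul_one]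
        rfl
      | add x y hx hy =>
        obtain ⟨x', hx'⟩ := hx
        obtain ⟨y', hy'⟩ := hy
        exact ⟨x' + y', by rw [map_add, hx', hy', Submodule.Quotient.mk_add]⟩
    let ψ := Equiv.ofBijective f1 ⟨hinj, hsurj⟩
    refine ⟨e.trans ψ, ?_, ?_⟩
    · intro f g
      change f1 (e (f * g)) = f1 (e f) + f1 (e g)
      rw [he1, map_add]
    · intro σ f g hfg
      change f1 (e g) = _
      rw [he2 σ f g hfg]
      change _ = (ρ.baseChangeAlong φ hφ).levelAction I σ (f1 (e f))
      obtain ⟨v, hv⟩ := Submodule.Quotient.mk_surjective _ (e f)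
      rw [← hv]
      rfl

end Fermat.Agent.S56.C
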