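/-
S56 block (C), leaf C3b: the strict ordinary condition is stable under base change.
-/
import Fermat.Agent.S56.C.Defs

set_option autoImplicit false

open IsLocalRing Matrix
open scoped TensorProduct

noncomputable section

namespace Fermat.Agent.S56.C

open Fermat.Agent.S53 (G M2 HasMatrix HasMatrixRes dualAlg Cond)

variable {A B : Type} [CommRing A] [IsLocalRing A] [CommRing B] [IsLocalRing B]
  (φ : A →+* B) (hφ : IsLocalHom φ) {ρ : GaloisRepAdic A}

section StableSOaux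

open scoped TensorProduct

variable {A₀ B₀ V₀ : Type} [CommRing A₀] [CommRing B₀] [Algebra A₀ B₀] [AddCommGroup V₀]
  [Module A₀ V₀]

theorem StableSO_tmul_mem (v0 : V₀) {v : V₀} (hv : v ∈ Submodule.span A₀ {v0}) (c : B₀) :
    c ⊗ₜ[A₀] v ∈ Submodule.span B₀ {(1 : B₀) ⊗ₜ[A₀] v0} := by
  obtain ⟨a, rfl⟩ := Submodule.mem_span_singleton.1 hv
  rw [Submodule.mem_span_singleton]
  refine ⟨a • c, ?_⟩
  rw [TensorProduct.smul_tmul', smul_eq_mul, mul_one, TensorProduct.smul_tmul]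

theorem StableSO_stable (f : V₀ →ₗ[A₀] V₀) (v0 : V₀)
    (hf : ∀ v ∈ Submodule.span A₀ {v0}, f v ∈ Submodule.span A₀ {v0}) :
    ∀ w ∈ Submodule.span B₀ {(1 : B₀) ⊗ₜ[A₀] v0},
      f.baseChange B₀ w ∈ Submodule.span B₀ {(1 : B₀) ⊗ₜ[A₀] v0} := by
  intro w hw
  obtain ⟨c, rfl⟩ := Submodule.mem_span_singleton.1 hw
  rw [map_smul, LinearMap.baseChange_tmul]
  exact Submodule.smul_mem _ _
    (StableSO_tmul_mem v0 (hf v0 (Submodule.mem_span_singleton_self v0)) 1)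

theorem StableSO_sub_mem (f : V₀ →ₗ[A₀] V₀) (z : A₀) (v0 : V₀)
    (hf : ∀ v, f v - z • v ∈ Submodule.span A₀ {v0}) (w : B₀ ⊗[A₀] V₀) :
    f.baseChange B₀ w - algebraMap A₀ B₀ z • w ∈ Submodule.span B₀ {(1 : B₀) ⊗ₜ[A₀] v0} := by
  induction w using TensorProduct.induction_on with
  | zero =>
    rw [map_zero, smul_zero, sub_zero]
    exact Submodule.zero_mem _
  | tmul c v =>
    have h1 : f.baseChange B₀ (c ⊗ₜ[A₀] v) - algebraMap A₀ B₀ z • (c ⊗ₜ[A₀] v) =
        c ⊗ₜ[A₀] (f v - z • v) := by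
      rw [LinearMap.baseChange_tmul, TensorProduct.tmul_sub, TensorProduct.tmul_smul,
        algebraMap_smul]
    rw [h1]
    exact StableSO_tmul_mem v0 (hf v) c
  | add x y hx hy =>
    have h1 : f.baseChange B₀ (x + y) - algebraMap A₀ B₀ z • (x + y) =
        (f.baseChange B₀ x - algebraMap A₀ B₀ z • x) +
          (f.baseChange B₀ y - algebraMap A₀ B₀ z • y) := by
      rw [map_add, smul_add]
      abel
    rw [h1]
    exact Submodule.add_mem _ hx hy

theorem StableSO_eigen (f : V₀ →ₗ[A₀] V₀) (x : A₀) (v0 : V₀)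
    (hf : ∀ w ∈ Submodule.span A₀ {v0}, f w = x • w) :
    ∀ w ∈ Submodule.span B₀ {(1 : B₀) ⊗ₜ[A₀] v0},
      f.baseChange B₀ w = algebraMap A₀ B₀ x • w := by
  intro w hw
  obtain ⟨c, rfl⟩ := Submodule.mem_span_singleton.1 hw
  rw [map_smul, LinearMap.baseChange_tmul, hf v0 (Submodule.mem_span_singleton_self v0),
    TensorProduct.tmul_smul, algebraMap_smul, smul_comm]

theorem StableSO_sub_mem_one (f : V₀ →ₗ[A₀] V₀) (v0 : V₀)
    (hf : ∀ v, f v - v ∈ Submodule.span A₀ {v0}) (w : B₀ ⊗[A₀] V₀) :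
    f.baseChange B₀ w - w ∈ Submodule.span B₀ {(1 : B₀) ⊗ₜ[A₀] v0} := by
  have h1 := StableSO_sub_mem (B₀ := B₀) f 1 v0 (fun v => by rw [one_smul]; exact hf v) w
  rwa [map_one, one_smul] at h1

theorem StableSO_span_eq (b : Module.Basis (Fin 2) A₀ V₀) :
    Submodule.span B₀ {(1 : B₀) ⊗ₜ[A₀] b 0} = Submodule.span B₀ {b.baseChange B₀ 0} := by
  rw [Module.Basis.baseChange_apply]

end StableSOaux

/-- Take `L' := B ∙ (1 ⊗ b 0)`, basis `b.baseChange B` (`Algebra.TensorProduct.basis` / `Module.Basis.baseChange`),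
`x' = φ x`, `z' = φ z`; every element of `B ⊗ V` is a sum of pure tensors (`TensorProduct.induction_on`). -/
theorem isStrictOrdinaryAt_baseChange {p : ℕ} (h : ρ.IsStrictOrdinaryAt p) :
    (ρ.baseChangeAlong φ hφ).IsStrictOrdinaryAt p := by
  let _ : Algebra A B := φ.toAlgebra
  refine ⟨?_, fun P hP => ?_⟩
  · have := hφ
    have h1 := map_nonunit φ (p : A) h.1
    rwa [map_natCast] at h1
  obtain ⟨L, ⟨b, rfl⟩, hD, hI, hx⟩ := h.2 P hP
  refine ⟨Submodule.span B {(1 : B) ⊗ₜ[A] b 0}, ⟨b.baseChange B, ?_⟩, ?_, ?_, ?_⟩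
  · exact StableSO_span_eq b
  · intro σ hσ v hv
    exact StableSO_stable (ρ.ρ σ) (b 0) (hD σ hσ) v hv
  · intro σ hσ v
    exact StableSO_sub_mem_one (B₀ := B) (ρ.ρ σ) (b 0) (hI σ hσ) v
  · intro σ hσ
    obtain ⟨x, z, h1, h2, h3⟩ := hx σ hσ
    refine ⟨φ x, φ z, ?_, ?_, ?_⟩
    · intro w hw
      exact StableSO_eigen (ρ.ρ σ) x (b 0) h1 w hw
    · intro v
      exact StableSO_sub_mem (B₀ := B) (ρ.ρ σ) z (b 0) h2 v
    · intro n a ha
      have h4 := h3 n a ha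
      rw [Ideal.mem_span_singleton] at h4 ⊢
      have h5 := map_dvd φ h4
      rwa [map_natCast, map_sub, map_mul, map_natCast] at h5

end Fermat.Agent.S56.C
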