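/-
S56 block (C), C3: the conditions `D_Q` of S56 are `QuotStable`.
-/
import Fermat.Agent.S56.C.StableBasic
import Fermat.Agent.S56.C.StableSO
import Fermat.Agent.S56.C.StableFlat

set_option autoImplicit false

open IsLocalRing Matrix

noncomputable section

namespace Fermat.Agent.S56.C

open Fermat.Agent.S53 (G M2 HasMatrix HasMatrixRes dualAlg Cond)

section quot

variable (𝒪 : Type) [CommRing 𝒪] [IsLocalRing 𝒪] (p : ℕ) (S Smin : Finset ℕ)

/-- the condition `D_Q` of the strict ordinary half of S56. -/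
abbrev condSO : Cond 𝒪 := fun _A _ _ _ ρ =>
  GaloisRep.strictOrdinaryCondition 𝒪 p S ρ ∧
    ∀ q ∈ Smin, q.Prime → q ≠ p → ρ.IsUnipotentOnInertiaAt q

/-- the condition `D_Q` of the flat half of S56. -/
abbrev condFl : Cond 𝒪 := fun _A _ _ _ ρ =>
  GaloisRep.flatCondition 𝒪 p S ρ ∧
    ∀ q ∈ Smin, q.Prime → q ≠ p → ρ.IsUnipotentOnInertiaAt q

theorem quotStable_condSO : QuotStable 𝒪 (condSO 𝒪 p S Smin) := by
  intro R _ _ _ ρ h φ hφ _
  exact ⟨⟨detIsCyclotomic_baseChange _ hφ h.1.1, isStrictOrdinaryAt_baseChange _ hφ h.1.2.1,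
    fun q hq hqS => isUnramifiedAt_baseChange _ hφ (h.1.2.2 q hq hqS)⟩,
    fun q hq hq' hqp => isUnipotentOnInertiaAt_baseChange _ hφ (h.2 q hq hq' hqp)⟩

theorem quotStable_condFl : QuotStable 𝒪 (condFl 𝒪 p S Smin) := by
  intro R _ _ _ ρ h φ hφ hs
  exact ⟨⟨detIsCyclotomic_baseChange _ hφ h.1.1, isFlatAt_baseChange_of_surjective _ hφ hs h.1.2.1,
    fun q hq hqS => isUnramifiedAt_baseChange _ hφ (h.1.2.2 q hq hqS)⟩,
    fun q hq hq' hqp => isUnipotentOnInertiaAt_baseChange _ hφ (h.2 q hq hq' hqp)⟩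

end quot

end Fermat.Agent.S56.C
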