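/-
S56 block (C): INTERFACE with the blocks (Lq), (F), (GW).
"the lift `(1 + ε c) r` is of type `D_Q`  ==>  `c` is a Selmer cocycle" and the contracts `SelBoundSO`, `SelBoundFl`.
-/
import Fermat.Agent.S56.C.Stable
import Fermat.Agent.S56.C.LocalBasic
import Fermat.Agent.S56.C.LocalSO

set_option autoImplicit false

open IsLocalRing Matrix

noncomputable section

namespace Fermat.Agent.S56.C

open Fermat.Agent.S53 (G M2 HasMatrix HasMatrixRes dualAlg Cond)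

section final

variable (𝒪 : Type) [CommRing 𝒪] [IsLocalRing 𝒪] {p : ℕ} (hpp : p.Prime) (hp2 : p ≠ 2)
  (hp𝒪 : (p : 𝒪) ∈ maximalIdeal 𝒪) (S' Smin : Finset ℕ)
  (r : G →* GL (Fin 2) (ResidueField 𝒪)) {c : G → M2 (ResidueField 𝒪)}

include hp𝒪 in
theorem natCast_residueField_eq_zero : (p : ResidueField 𝒪) = 0 := by
  have := (residue_eq_zero_iff (p : 𝒪)).mpr hp𝒪
  simpa using this

include hpp hp2 hp𝒪 in
theorem isSelSO_of_typeD (hc : IsCoc r c) (h : TypeD 𝒪 (condSO 𝒪 p S' Smin) r c) :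
    IsSelSO r c p S' Smin := by
  obtain ⟨ρ, hm, ⟨hdet, hso, hun⟩, hunip⟩ := h
  have hp0 := natCast_residueField_eq_zero 𝒪 hp𝒪
  have htr := traceZero_of_det r hpp hp0 hm hdet
  exact ⟨hc, smooth_of_hasMatrix r hm, htr,
    fun q hq hqS => unramAt_of_hasMatrix r hm (hun q hq hqS),
    fun q hq hq' hqp => unipAt_of_hasMatrix r hm (hunip q hq hq' hqp),
    sOAt_of_hasMatrix r hpp hp2 hp0 hm htr hso⟩

include hpp hp𝒪 in
theorem isSelFl_of_typeD (hc : IsCoc r c) (h : TypeD 𝒪 (condFl 𝒪 p S' Smin) r c) :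
    IsSelFl r c p S' Smin := by
  obtain ⟨ρ, hm, ⟨hdet, hfl, hun⟩, hunip⟩ := h
  have hp0 := natCast_residueField_eq_zero 𝒪 hp𝒪
  exact ⟨hc, smooth_of_hasMatrix r hm, traceZero_of_det r hpp hp0 hm hdet,
    fun q hq hqS => unramAt_of_hasMatrix r hm (hun q hq hqS),
    fun q hq hq' hqp => unipAt_of_hasMatrix r hm (hunip q hq hq' hqp), ⟨ρ, hm, hfl⟩⟩

/-- CONTRACT FOR (GW)+(G2)+(T)+(Lq): the Selmer cocycles of strict ordinary type are covered, up to coboundaries, by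
`≤ |k|^n` cocycles, one of which is a coboundary. -/
def SelBoundSO (p : ℕ) (n : ℕ) : Prop :=
  ∃ T : Finset (G → M2 (ResidueField 𝒪)), T.card ≤ Nat.card (ResidueField 𝒪) ^ n ∧
    (∃ t ∈ T, IsCob r t) ∧ ∀ c, IsSelSO r c p S' Smin → ∃ t ∈ T, IsCob r (c - t)

/-- CONTRACT FOR (GW)+(G2)+(T)+(Lq)+(F), flat type. -/
def SelBoundFl (p : ℕ) (n : ℕ) : Prop :=
  ∃ T : Finset (G → M2 (ResidueField 𝒪)), T.card ≤ Nat.card (ResidueField 𝒪) ^ n ∧
    (∃ t ∈ T, IsCob r t) ∧ ∀ c, IsSelFl r c p S' Smin → ∃ t ∈ T, IsCob r (c - t)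

include hpp hp2 hp𝒪 in
theorem selBound_of_selBoundSO {n : ℕ} (h : SelBoundSO 𝒪 S' Smin r p n) :
    SelBound 𝒪 (condSO 𝒪 p S' Smin) r n := by
  obtain ⟨T, hT, ⟨t0, ht0, hcob0⟩, hcov⟩ := h
  refine ⟨T, hT, fun c hc h => ?_⟩
  rcases h with h | h
  · exact hcov c (isSelSO_of_typeD 𝒪 hpp hp2 hp𝒪 S' Smin r hc h)
  · refine ⟨t0, ht0, ?_⟩
    have h1 : IsCob r (c - 0) := by simpa using h
    have h2 : IsCob r (0 - t0) := liftMat_sub_isCob_symm r (by simpa using hcob0)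
    exact isCob_trans r h1 h2

include hpp hp𝒪 in
theorem selBound_of_selBoundFl {n : ℕ} (h : SelBoundFl 𝒪 S' Smin r p n) :
    SelBound 𝒪 (condFl 𝒪 p S' Smin) r n := by
  obtain ⟨T, hT, ⟨t0, ht0, hcob0⟩, hcov⟩ := h
  refine ⟨T, hT, fun c hc h => ?_⟩
  rcases h with h | h
  · exact hcov c (isSelFl_of_typeD 𝒪 hpp hp𝒪 S' Smin r hc h)
  · refine ⟨t0, ht0, ?_⟩
    have h1 : IsCob r (c - 0) := by simpa using h
    have h2 : IsCob r (0 - t0) := liftMat_sub_isCob_symm r (by simpa using hcob0)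
    exact isCob_trans r h1 h2

end final

end Fermat.Agent.S56.C
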