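/-
S56 block (C), leaf C1b: substitution into power series.
-/
import Fermat.Agent.S56.C.Defs
import Fermat.Agent.S53.Completion
import Fermat.Agent.S53.PowerSeriesComplete

set_option autoImplicit false

open IsLocalRing Matrix

noncomputable section

namespace Fermat.Agent.S56.C

open Fermat.Agent.S53 (G M2 HasMatrix HasMatrixRes dualAlg Cond)

variable (𝒪 : Type) [CommRing 𝒪] [IsLocalRing 𝒪] [IsNoetherianRing 𝒪]
  [IsAdicComplete (maximalIdeal 𝒪) 𝒪]
  (R : Type) [CommRing R] [IsLocalRing R] [IsNoetherianRing R]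
  [IsAdicComplete (maximalIdeal R) R] [Algebra 𝒪 R] [IsLocalHom (algebraMap 𝒪 R)]

/-- (C1b) substitution `X i ↦ y i ∈ 𝔪_R`.

PROOF SKETCH.  Apply `S53.completion_lift` with `Λ := MvPolynomial (Fin n) 𝒪`,
`R := MvPowerSeries (Fin n) 𝒪`, `ι := MvPolynomial.coeToMvPowerSeries.algHom 𝒪`,
`I m := (maximalIdeal (MvPowerSeries (Fin n) 𝒪) ^ m).comap ι` (so `h1` is `rfl`), `A := R`,
`f := MvPolynomial.aeval y`.  `h2` (density of polynomials): truncate, use
`S53.maximalIdeal_pow_eq_wIdeal` / `S53.mem_wIdeal` (`f - trunc` has no coefficient of degree `< m`).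
`hf`: a polynomial `P` whose coefficient at `α` lies in `𝔪_𝒪 ^ (m - |α|)` is mapped to `𝔪_R ^ m`
(sum over the support; `y^α ∈ 𝔪_R^|α|`; `algebraMap` maps `𝔪_𝒪^j` to `𝔪_R^j`); compare
`S53.Completion.aeval_mem_pow`. -/
theorem exists_algHom_X {n : ℕ} (y : Fin n → R) (hy : ∀ i, y i ∈ maximalIdeal R) :
    ∃ γ : MvPowerSeries (Fin n) 𝒪 →ₐ[𝒪] R, ∀ i, γ (MvPowerSeries.X i) = y i := by
  classical
  let ι : MvPolynomial (Fin n) 𝒪 →ₐ[𝒪] MvPowerSeries (Fin n) 𝒪 :=
    MvPolynomial.coeToMvPowerSeries.algHom 𝒪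
  have hι : ∀ P : MvPolynomial (Fin n) 𝒪, ι P = (P : MvPowerSeries (Fin n) 𝒪) := by
    intro P
    simp [ι, MvPolynomial.coeToMvPowerSeries.algHom_apply]
  have h2 : ∀ m (r : MvPowerSeries (Fin n) 𝒪), ∃ x : MvPolynomial (Fin n) 𝒪,
      r - ι x ∈ maximalIdeal (MvPowerSeries (Fin n) 𝒪) ^ m := by
    intro m r
    refine ⟨MvPowerSeries.truncTotal m r, ?_⟩
    rw [Fermat.Agent.S53.maximalIdeal_pow_eq_wIdeal, Fermat.Agent.S53.mem_wIdeal]
    intro α
    by_cases hα : Finsupp.degree α < m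
    · rw [hι, map_sub, MvPolynomial.coeff_coe, MvPowerSeries.coeff_truncTotal _ hα, sub_self]
      exact Ideal.zero_mem _
    · have h0 : m - Finsupp.degree α = 0 := by omega
      rw [h0, pow_zero, Ideal.one_eq_top]
      trivial
  have hf : ∀ m, (maximalIdeal (MvPowerSeries (Fin n) 𝒪) ^ m).comap ι ≤
      (maximalIdeal R ^ m).comap (MvPolynomial.aeval (R := 𝒪) y) := by
    intro m P hP
    rw [Ideal.mem_comap] at hP ⊢
    rw [Fermat.Agent.S53.maximalIdeal_pow_eq_wIdeal, Fermat.Agent.S53.mem_wIdeal] at hP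
    rw [MvPolynomial.aeval_def, MvPolynomial.eval₂_eq]
    refine Ideal.sum_mem _ fun α _ => ?_
    have h1 : algebraMap 𝒪 R (P.coeff α) ∈ maximalIdeal R ^ (m - Finsupp.degree α) := by
      have h := hP α
      rw [hι, MvPolynomial.coeff_coe] at h
      exact Fermat.Agent.S53.Completion.map_maximalIdeal_pow_le (algebraMap 𝒪 R) _ h
    have h3 : ∏ i ∈ α.support, y i ^ α i ∈ maximalIdeal R ^ Finsupp.degree α := by
      rw [Finsupp.degree_apply, ← Finset.prod_pow_eq_pow_sum]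
      exact Ideal.prod_mem_prod fun i _ => Ideal.pow_mem_pow (hy i) _
    have h4 := Ideal.mul_mem_mul h1 h3
    rw [← pow_add] at h4
    exact Ideal.pow_le_pow_right (by omega) h4
  obtain ⟨φ, hφ, -⟩ := Fermat.Agent.S53.completion_lift ι
    (fun m => (maximalIdeal (MvPowerSeries (Fin n) 𝒪) ^ m).comap ι) (fun _ => rfl) h2
    (MvPolynomial.aeval (R := 𝒪) y) hf
  refine ⟨φ, fun i => ?_⟩
  have h := DFunLike.congr_fun hφ (MvPolynomial.X i)
  rw [AlgHom.comp_apply, hι, MvPolynomial.coe_X, MvPolynomial.aeval_X] at h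
  exact h

end Fermat.Agent.S56.C
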