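/-
S56 block (C), leaf C1c: surjectivity criterion for maps from power series rings.
-/
import Fermat.Agent.S56.C.Defs
import Fermat.Agent.S53.Completion
import Fermat.Agent.S53.PowerSeriesComplete

set_option autoImplicit false

open IsLocalRing Matrix

noncomputable section

namespace Fermat.Agent.S56.C

open Fermat.Agent.S53 (G M2 HasMatrix HasMatrixRes dualAlg Cond)

variable (𝒪 : Type) [CommRing 𝒪] [IsLocalRing 𝒪] [IsNoetherianRing 𝒪]
  [IsAdicComplete (maximalIdeal 𝒪) 𝒪]
  (R : Type) [CommRing R] [IsLocalRing R] [IsNoetherianRing R]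
  [IsAdicComplete (maximalIdeal R) R] [Algebra 𝒪 R] [IsLocalHom (algebraMap 𝒪 R)]

/-- (C1c) an `𝒪`-algebra hom from a power series ring which hits generators of `𝔪_R` modulo
`𝔪_𝒪 R + 𝔪_R²` is surjective.

PROOF SKETCH.  `P := MvPowerSeries (Fin n) 𝒪`, complete by `S53.isAdicComplete_mvPowerSeries`.
(1) `𝔪_P = span (range X) ⊔ map C 𝔪_𝒪` (`f = C (constantCoeff f) + Σ X i * f_i`; or from
`S53.maximalIdeal_pow_eq_wIdeal 1` + `S53.mem_pow_of_coeff_eq_zero`), hence
`(𝔪_P ^ m).map γ ≤ 𝔪_R ^ m`.  (2) Nakayama (`𝔪_R` f.g.): `𝔪_R = (𝔪_P).map γ`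
(`Submodule.le_of_le_smul_of_le_jacobson_bot` or `Ideal` version, from `hgen`).  (3) `R = γ(P) + 𝔪_R` by `hres`.
(4) by induction every `x : R` and `m` : `∃ a_m ∈ P`, `x - γ a_m ∈ 𝔪_R ^ m` and `a_{m+1} - a_m ∈ 𝔪_P ^ m`
(write an element of `𝔪_R^m = (𝔪_P^m).map γ` as `Σ γ(u_i) x_i`, `u_i ∈ 𝔪_P^m`, and `x_i = γ(b_i) + 𝔪_R`).
(5) limit `a` of `a_m` (`IsPrecomplete`), `x - γ a ∈ ⋂ 𝔪_R^m = 0` (`IsHausdorff`).
`S53.Completion.exists_limit_of_succ` helps for (5). -/
theorem surjective_of_generators {n : ℕ} (γ : MvPowerSeries (Fin n) 𝒪 →ₐ[𝒪] R)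
    (hres : Function.Surjective (IsLocalRing.residue R ∘ algebraMap 𝒪 R))
    (hgen : maximalIdeal R ≤ Ideal.span (Set.range fun i => γ (MvPowerSeries.X i)) ⊔
      (maximalIdeal 𝒪).map (algebraMap 𝒪 R) ⊔ maximalIdeal R ^ 2) :
    Function.Surjective γ := by
  classical
  have hcomp : IsAdicComplete (maximalIdeal (MvPowerSeries (Fin n) 𝒪)) (MvPowerSeries (Fin n) 𝒪) :=
    Fermat.Agent.S53.isAdicComplete_mvPowerSeries
  have hC : ∀ c : 𝒪, γ (MvPowerSeries.C c) = algebraMap 𝒪 R c := by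
    intro c
    have h := γ.commutes c
    rwa [MvPowerSeries.algebraMap_apply, Algebra.algebraMap_self_apply] at h
  -- `γ` maps the maximal ideal into the maximal ideal
  have hloc : ∀ f ∈ maximalIdeal (MvPowerSeries (Fin n) 𝒪), γ f ∈ maximalIdeal R := by
    intro f hf
    by_contra hγf
    obtain ⟨c, hc⟩ := hres (IsLocalRing.residue R (γ f))
    have hc' : IsLocalRing.residue R (algebraMap 𝒪 R c) = IsLocalRing.residue R (γ f) := hc
    have hcu : IsUnit c := by
      by_contra hcn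
      have h1 : algebraMap 𝒪 R c ∈ maximalIdeal R := by
        rw [mem_maximalIdeal, mem_nonunits_iff]
        intro h2
        exact hcn (isUnit_of_map_unit (algebraMap 𝒪 R) c h2)
      rw [(IsLocalRing.residue_eq_zero_iff _).mpr h1] at hc'
      exact hγf ((IsLocalRing.residue_eq_zero_iff _).mp hc'.symm)
    have hfc : MvPowerSeries.constantCoeff f ∈ maximalIdeal 𝒪 := by
      rw [mem_maximalIdeal, mem_nonunits_iff, MvPowerSeries.isUnit_iff_constantCoeff] at hf
      exact hf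
    have hu : IsUnit (f - MvPowerSeries.C c) := by
      rw [MvPowerSeries.isUnit_iff_constantCoeff, map_sub, MvPowerSeries.constantCoeff_C]
      by_contra hn
      have h3 : MvPowerSeries.constantCoeff f - c ∈ maximalIdeal 𝒪 := hn
      have h4 : c ∈ maximalIdeal 𝒪 := by
        have := (maximalIdeal 𝒪).sub_mem hfc h3
        simpa using this
      exact h4 hcu
    have hu' : IsUnit (γ f - algebraMap 𝒪 R c) := by
      have := hu.map γ
      rwa [map_sub, hC] at this
    have h5 : γ f - algebraMap 𝒪 R c ∈ maximalIdeal R := by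
      rw [← IsLocalRing.residue_eq_zero_iff, map_sub, hc', sub_self]
    exact h5 hu'
  have hJle : (maximalIdeal (MvPowerSeries (Fin n) 𝒪)).map (γ : MvPowerSeries (Fin n) 𝒪 →+* R) ≤
      maximalIdeal R := by
    rw [Ideal.map_le_iff_le_comap]
    intro f hf
    exact hloc f hf
  have hleJ : maximalIdeal R ≤
      (maximalIdeal (MvPowerSeries (Fin n) 𝒪)).map (γ : MvPowerSeries (Fin n) 𝒪 →+* R) := by
    refine Submodule.le_of_le_smul_of_le_jacobson_bot (I := maximalIdeal R)
      (IsNoetherian.noetherian _) (IsLocalRing.maximalIdeal_le_jacobson _) ?_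
    refine hgen.trans (sup_le (sup_le ?_ ?_) ?_)
    · refine le_sup_of_le_left ?_
      rw [Ideal.span_le]
      rintro _ ⟨i, rfl⟩
      exact Ideal.mem_map_of_mem (γ : MvPowerSeries (Fin n) 𝒪 →+* R)
        (Fermat.Agent.S53.X_mem_maximalIdeal i)
    · refine le_sup_of_le_left ?_
      rw [Ideal.map_le_iff_le_comap]
      intro c hc
      rw [Ideal.mem_comap, ← hC]
      refine Ideal.mem_map_of_mem (γ : MvPowerSeries (Fin n) 𝒪 →+* R) ?_
      have := Fermat.Agent.S53.C_mem_maximalIdeal_pow (σ := Fin n) (j := 1) (c := c) (by simpa using hc)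
      simpa using this
    · refine le_sup_of_le_right ?_
      rw [pow_two, smul_eq_mul]
  have hJ : (maximalIdeal (MvPowerSeries (Fin n) 𝒪)).map (γ : MvPowerSeries (Fin n) 𝒪 →+* R) =
      maximalIdeal R := le_antisymm hJle hleJ
  have hH : IsHausdorff
      ((maximalIdeal (MvPowerSeries (Fin n) 𝒪)).map (γ : MvPowerSeries (Fin n) 𝒪 →+* R)) R := by
    rw [hJ]
    infer_instance
  refine surjective_of_mk_map_comp_surjective (I := maximalIdeal (MvPowerSeries (Fin n) 𝒪))
    (γ : MvPowerSeries (Fin n) 𝒪 →+* R) ?_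
  intro x
  obtain ⟨x, rfl⟩ := Ideal.Quotient.mk_surjective x
  obtain ⟨c, hc⟩ := hres (IsLocalRing.residue R x)
  have hc' : IsLocalRing.residue R (algebraMap 𝒪 R c) = IsLocalRing.residue R x := hc
  refine ⟨MvPowerSeries.C c, ?_⟩
  change Ideal.Quotient.mk _ (γ (MvPowerSeries.C c)) = _
  rw [hC, Ideal.Quotient.mk_eq_mk_iff_sub_mem, hJ, ← IsLocalRing.residue_eq_zero_iff, map_sub, hc',
    sub_self]

end Fermat.Agent.S56.C
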