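/-
S56 block (C): ASSEMBLY.  `SelBound` (at most `|k|^n` classes of infinitesimal lifts of type `𝒟`)
  ==>  the universal deformation ring is a quotient of `𝒪⟦X₁,…,X_n⟧`.
-/
import Fermat.Agent.S56.C.Cotangent
import Fermat.Agent.S56.C.PowerSeriesHom
import Fermat.Agent.S56.C.PowerSeriesSurj
import Fermat.Agent.S56.C.ExistsRm
import Fermat.Agent.S56.C.Hom
import Fermat.Agent.S56.C.Stable
import Fermat.Agent.S56.C.Interface

set_option autoImplicit false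

open IsLocalRing Matrix

noncomputable section

namespace Fermat.Agent.S56.C

open Fermat.Agent.S53 (G M2 HasMatrix HasMatrixRes dualAlg Cond)

variable {𝒪 : Type} [CommRing 𝒪] [IsDomain 𝒪] [IsDiscreteValuationRing 𝒪]
  [IsAdicComplete (maximalIdeal 𝒪) 𝒪] [Finite (ResidueField 𝒪)]
  {ρbar : ResidualGaloisRep (ResidueField 𝒪)}

/-- MAIN THEOREM OF BLOCK (C). -/
theorem exists_surjective {𝒟 : Cond 𝒪} (D : GaloisRep.DeformationRingData 𝒪 ρbar 𝒟)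
    (hq : QuotStable 𝒪 𝒟) (r : G →* GL (Fin 2) (ResidueField 𝒪))
    (hr : HasMatrixRes ρbar (rm r)) (n : ℕ) (hS : SelBound 𝒪 𝒟 r n) :
    ∃ γ : MvPowerSeries (Fin n) 𝒪 →ₐ[𝒪] D.R, Function.Surjective γ := by
  obtain ⟨hfin, hcard⟩ := hom_card_le D hq r hr n hS
  obtain ⟨y, hy, hgen⟩ := exists_generators 𝒪 D.R D.residue_surjective n hfin hcard
  obtain ⟨γ, hγ⟩ := exists_algHom_X 𝒪 D.R y hy
  refine ⟨γ, surjective_of_generators 𝒪 D.R γ D.residue_surjective ?_⟩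
  have : (fun i => γ (MvPowerSeries.X i)) = y := funext hγ
  rw [this]
  exact hgen

/-- the strict ordinary half, in the exact shape of the frozen statement S56. -/
theorem exists_surjective_strictOrdinary (p : ℕ) (S' Smin : Finset ℕ)
    (r : G →* GL (Fin 2) (ResidueField 𝒪)) (hr : HasMatrixRes ρbar (rm r)) (n : ℕ)
    (hS : SelBound 𝒪 (condSO 𝒪 p S' Smin) r n)
    (DQ : GaloisRep.DeformationRingData 𝒪 ρbar (fun _A _ _ _ ρ =>
      GaloisRep.strictOrdinaryCondition 𝒪 p S' ρ ∧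
        ∀ q ∈ Smin, q.Prime → q ≠ p → ρ.IsUnipotentOnInertiaAt q)) :
    ∃ γ : MvPowerSeries (Fin n) 𝒪 →ₐ[𝒪] DQ.R, Function.Surjective γ :=
  exists_surjective DQ (quotStable_condSO 𝒪 p S' Smin) r hr n hS

/-- the flat half, in the exact shape of the frozen statement S56. -/
theorem exists_surjective_flat (p : ℕ) (S' Smin : Finset ℕ)
    (r : G →* GL (Fin 2) (ResidueField 𝒪)) (hr : HasMatrixRes ρbar (rm r)) (n : ℕ)
    (hS : SelBound 𝒪 (condFl 𝒪 p S' Smin) r n)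
    (DQ : GaloisRep.DeformationRingData 𝒪 ρbar (fun _A _ _ _ ρ =>
      GaloisRep.flatCondition 𝒪 p S' ρ ∧
        ∀ q ∈ Smin, q.Prime → q ≠ p → ρ.IsUnipotentOnInertiaAt q)) :
    ∃ γ : MvPowerSeries (Fin n) 𝒪 →ₐ[𝒪] DQ.R, Function.Surjective γ :=
  exists_surjective DQ (quotStable_condFl 𝒪 p S' Smin) r hr n hS

/-- FINAL FORM (strict ordinary half): what the assembly of S56 consumes. -/
theorem exists_surjective_of_selBoundSO {p : ℕ} (hpp : p.Prime) (hp2 : p ≠ 2)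
    (hp𝒪 : (p : 𝒪) ∈ maximalIdeal 𝒪) (S' Smin : Finset ℕ)
    (r : G →* GL (Fin 2) (ResidueField 𝒪)) (hr : HasMatrixRes ρbar (rm r)) (n : ℕ)
    (hS : SelBoundSO 𝒪 S' Smin r p n)
    (DQ : GaloisRep.DeformationRingData 𝒪 ρbar (fun _A _ _ _ ρ =>
      GaloisRep.strictOrdinaryCondition 𝒪 p S' ρ ∧
        ∀ q ∈ Smin, q.Prime → q ≠ p → ρ.IsUnipotentOnInertiaAt q)) :
    ∃ γ : MvPowerSeries (Fin n) 𝒪 →ₐ[𝒪] DQ.R, Function.Surjective γ :=
  exists_surjective_strictOrdinary p S' Smin r hr n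
    (selBound_of_selBoundSO 𝒪 hpp hp2 hp𝒪 S' Smin r hS) DQ

/-- FINAL FORM (flat half). -/
theorem exists_surjective_of_selBoundFl {p : ℕ} (hpp : p.Prime)
    (hp𝒪 : (p : 𝒪) ∈ maximalIdeal 𝒪) (S' Smin : Finset ℕ)
    (r : G →* GL (Fin 2) (ResidueField 𝒪)) (hr : HasMatrixRes ρbar (rm r)) (n : ℕ)
    (hS : SelBoundFl 𝒪 S' Smin r p n)
    (DQ : GaloisRep.DeformationRingData 𝒪 ρbar (fun _A _ _ _ ρ =>
      GaloisRep.flatCondition 𝒪 p S' ρ ∧
        ∀ q ∈ Smin, q.Prime → q ≠ p → ρ.IsUnipotentOnInertiaAt q)) :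
    ∃ γ : MvPowerSeries (Fin n) 𝒪 →ₐ[𝒪] DQ.R, Function.Surjective γ :=
  exists_surjective_flat p S' Smin r hr n (selBound_of_selBoundFl 𝒪 hpp hp𝒪 S' Smin r hS) DQ

end Fermat.Agent.S56.C
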