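/-
S56 block (C): the EXISTENCE of a deformation ring datum whose universal representation is unipotent on the inertia
groups above `q` forces the residual representation to be unipotent on these inertia groups
(`tr = 2`, `det = 1`).  Requested by block (Lq).
-/
import Fermat.Agent.S56.C.Stable

set_option autoImplicit false

open IsLocalRing Matrix

noncomputable section

namespace Fermat.Agent.S56.C

open Fermat.Agent.S53 (G M2 HasMatrix HasMatrixRes dualAlg Cond)

/-- `charpoly = (X-1)²` for a `2 × 2` matrix means `tr = 2`, `det = 1`. -/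
theorem trace_det_of_charpoly {A : Type} [CommRing A] [Nontrivial A] (M : M2 A)
    (h : M.charpoly = (Polynomial.X - 1) ^ 2) : M.trace = 2 ∧ M.det = 1 := by
  rw [Matrix.charpoly_fin_two] at h
  have e : (Polynomial.X - 1 : Polynomial A) ^ 2
      = Polynomial.X ^ 2 - Polynomial.C 2 * Polynomial.X + Polynomial.C 1 := by
    simp only [map_ofNat, map_one]
    ring
  rw [e] at h
  have h1 := congrArg (fun f => Polynomial.coeff f 1) h
  have h0 := congrArg (fun f => Polynomial.coeff f 0) h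
  simp only [Polynomial.coeff_add, Polynomial.coeff_sub, Polynomial.coeff_X_pow,
    Polynomial.coeff_C_mul, Polynomial.coeff_X_one, Polynomial.coeff_X_zero,
    Polynomial.coeff_C] at h1 h0
  simp only [OfNat.one_ne_ofNat, if_false, one_ne_zero, mul_one, zero_sub, add_zero, neg_inj]
    at h1
  simp only [OfNat.zero_ne_ofNat, if_false, if_true, mul_zero, sub_zero, zero_add] at h0
  exact ⟨h1, h0⟩

variable {𝒪 : Type} [CommRing 𝒪] [IsDomain 𝒪] [IsDiscreteValuationRing 𝒪]
  [IsAdicComplete (maximalIdeal 𝒪) 𝒪]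
  {ρbar : ResidualGaloisRep (ResidueField 𝒪)}

/-- General form. -/
theorem unip_of_deformationRingData {𝒟 : Cond 𝒪} (D : GaloisRep.DeformationRingData 𝒪 ρbar 𝒟)
    (r : G →* GL (Fin 2) (ResidueField 𝒪)) (hr : HasMatrixRes ρbar (rm r)) {q : ℕ}
    (hu : D.ρ.IsUnipotentOnInertiaAt q) :
    ∀ P : ValuationSubring (AlgebraicClosure ℚ), P.LiesOverPrime q →
      ∀ σ ∈ P.inertiaSubgroupIn ℚ, (rm r σ).trace = 2 ∧ (rm r σ).det = 1 := by
  intro P hP σ hσ
  obtain ⟨b, hb⟩ := Fermat.Agent.S53.exists_hasMatrix D.ρ |>.choose_spec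
  set s := (Fermat.Agent.S53.exists_hasMatrix D.ρ).choose with hs
  have hsm : HasMatrix D.ρ s := ⟨b, hb⟩
  have h0 := hu P hP σ hσ
  rw [← LinearMap.charpoly_toMatrix _ b, hb σ] at h0
  obtain ⟨ht, hd⟩ := trace_det_of_charpoly _ h0
  have h1 := hsm.residual
  have h2 := hr.baseChangeAlong (ResidueField.map (algebraMap 𝒪 D.R))
  obtain ⟨e⟩ := D.residual_isEquiv
  have h3 := h2.of_isEquiv ⟨e.symm⟩
  obtain ⟨Q, hQ, hc⟩ := h1.exists_conj h3
  have hQd : IsUnit Q.det := (Matrix.isUnit_iff_isUnit_det Q).mp hQ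
  set φ := ResidueField.map (algebraMap 𝒪 D.R) with hφ
  -- `(rm r σ).map φ = Q * (s σ).map residue * Q⁻¹`
  have h4 : (rm r σ).map φ = Q * (s σ).map (residue D.R) * Q⁻¹ := by
    rw [hc σ, Matrix.mul_assoc, Matrix.mul_nonsing_inv _ hQd, Matrix.mul_one]
  have ht' : ((rm r σ).map φ).trace = 2 := by
    rw [h4, Matrix.trace_mul_cycle, Matrix.nonsing_inv_mul _ hQd, Matrix.one_mul]
    have : ((s σ).map (residue D.R)).trace = residue D.R (s σ).trace := by
      rw [Matrix.trace_fin_two, Matrix.trace_fin_two, map_add]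
      rfl
    rw [this, ht, map_ofNat]
  have hd' : ((rm r σ).map φ).det = 1 := by
    rw [h4, Matrix.det_mul, Matrix.det_mul, mul_right_comm, ← Matrix.det_mul,
      Matrix.mul_nonsing_inv _ hQd, Matrix.det_one, one_mul]
    have : ((s σ).map (residue D.R)).det = residue D.R (s σ).det := by
      rw [RingHom.map_det]
      rfl
    rw [this, hd, map_one]
  constructor
  · apply φ.injective
    rw [map_ofNat, ← ht', Matrix.trace_fin_two, Matrix.trace_fin_two, map_add]
    rfl
  · apply φ.injective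
    rw [map_one, ← hd', RingHom.map_det]
    rfl

/-- The shape requested by (Lq), strict ordinary half. -/
theorem unip_of_DQ_SO (p : ℕ) (S' Smin : Finset ℕ)
    (DQ : GaloisRep.DeformationRingData 𝒪 ρbar (fun _A _ _ _ ρ =>
      GaloisRep.strictOrdinaryCondition 𝒪 p S' ρ ∧
        ∀ q ∈ Smin, q.Prime → q ≠ p → ρ.IsUnipotentOnInertiaAt q))
    (r : G →* GL (Fin 2) (ResidueField 𝒪)) (hr : HasMatrixRes ρbar (rm r)) :
    ∀ q ∈ Smin, q.Prime → q ≠ p → ∀ P : ValuationSubring (AlgebraicClosure ℚ),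
      P.LiesOverPrime q → ∀ σ ∈ P.inertiaSubgroupIn ℚ,
        (rm r σ).trace = 2 ∧ (rm r σ).det = 1 :=
  fun q hq hq' hqp => unip_of_deformationRingData DQ r hr (DQ.isOfType.2 q hq hq' hqp)

/-- The shape requested by (Lq), flat half. -/
theorem unip_of_DQ_Fl (p : ℕ) (S' Smin : Finset ℕ)
    (DQ : GaloisRep.DeformationRingData 𝒪 ρbar (fun _A _ _ _ ρ =>
      GaloisRep.flatCondition 𝒪 p S' ρ ∧
        ∀ q ∈ Smin, q.Prime → q ≠ p → ρ.IsUnipotentOnInertiaAt q))
    (r : G →* GL (Fin 2) (ResidueField 𝒪)) (hr : HasMatrixRes ρbar (rm r)) :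
    ∀ q ∈ Smin, q.Prime → q ≠ p → ∀ P : ValuationSubring (AlgebraicClosure ℚ),
      P.LiesOverPrime q → ∀ σ ∈ P.inertiaSubgroupIn ℚ,
        (rm r σ).trace = 2 ∧ (rm r σ).det = 1 :=
  fun q hq hq' hqp => unip_of_deformationRingData DQ r hr (DQ.isOfType.2 q hq hq' hqp)

end Fermat.Agent.S56.C
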